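import Fermat.Agent.GAL.ALG.S30Assembly

set_option autoImplicit false

/-!
# DR/S35 : the S30 machine with its pseudo-character exposed

Same construction as `GAL.S30_core`, but the statement also returns the function `t : G_ℚ → O`
(the trace of `ρ`) and the comparison principle: `t g` can be computed on ANY nonzero continuous
`G_ℚ`-lattice on which almost all Frobenius elements satisfy `X² - a_ℓ X + ℓ`.
-/

namespace Fermat.Agent.DR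

open Polynomial CuspForm Fermat.Agent.GAL

theorem exists_rep_pseudo (hG : GeomInput) (hFD : FrobeniusDensity)
    (p : ℕ) [Fact p.Prime] (N : ℕ) [NeZero N] (S : Finset ℕ)
    (hpS : p ∈ S) (hNS : ∀ q : ℕ, q.Prime → q ∣ N → q ∈ S)
    (O : Type) [CommRing O] [IsDomain O] [IsDiscreteValuationRing O]
    [IsAdicComplete (IsLocalRing.maximalIdeal O) O]
    [CharZero O] (hpO : (p : O) ∈ IsLocalRing.maximalIdeal O) (ι : ℤ_[p] →+* O)
    (χ : CuspForm.heckeAlgebra N 2 (↑S : Set ℕ) →+* O) :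
    ∃ (ρ : GaloisRepAdic O) (t : GQ → O),
      (∀ σ : GQ, LinearMap.charpoly (ρ.ρ σ) =
        X ^ 2 - C (t σ) * X + C ((cycloO ι σ : Oˣ) : O)) ∧
      (∀ (ℓ : ℕ) (hℓ : ℓ.Prime) (hℓN : ¬ ℓ ∣ N) (hℓS : ℓ ∉ (↑S : Set ℕ)),
        ∀ A : ValuationSubring (AlgebraicClosure ℚ), A.LiesOverPrime ℓ →
          ∀ σ : GQ, A.IsFrobeniusAt σ ℓ → t σ = χ (CuspForm.heckeAlgebra.T hℓ hℓN hℓS)) ∧
      (∀ (Λ : Type) [AddCommGroup Λ] [Module O Λ] [Module.Free O Λ] [Module.Finite O Λ]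
        [Nontrivial Λ] (r : GQ →* Module.End O Λ), GaloisActionIsAdicContinuous O r →
        ∀ B : Finset ℕ,
          (∀ ℓ : ℕ, ℓ.Prime → ℓ ∉ B → ∀ A : ValuationSubring (AlgebraicClosure ℚ),
            A.LiesOverPrime ℓ → ∀ σ : GQ, A.IsFrobeniusAt σ ℓ →
              r σ * r σ - eigA (↑S : Set ℕ) χ ℓ • r σ + (ℓ : O) • (1 : Module.End O Λ) = 0) →
          ∀ (g : GQ) (s : O), r g + ((cycloO ι g : Oˣ) : O) • r g⁻¹ = s • 1 → t g = s) := by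
  have hpp : p.Prime := Fact.out
  set ε : GQ →* Oˣ := cycloO ι with hε
  set a : ℕ → O := eigA (↑S : Set ℕ) χ with ha
  have hεc := cycloO_cont ι hpO
  -- a lattice for every good prime
  have key : ∀ q : ℕ, q.Prime → ¬ q ∣ N * p → ∃ (M : ℕ) (_ : ¬ q ∣ M)
      (Λ : Type) (_ : AddCommGroup Λ) (_ : Module O Λ) (_ : Module.Free O Λ)
      (_ : Module.Finite O Λ) (_ : Nontrivial Λ) (r : GQ →* Module.End O Λ),
      GaloisActionIsAdicContinuous O r ∧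
      (∀ ℓ : ℕ, ℓ.Prime → ¬ ℓ ∣ M * p → ∀ A : ValuationSubring (AlgebraicClosure ℚ),
        A.LiesOverPrime ℓ → ∀ σ ∈ A.inertiaSubgroupIn ℚ, r σ = 1) ∧
      (∀ ℓ : ℕ, ℓ.Prime → ℓ ∉ (↑S : Set ℕ) → ¬ ℓ ∣ M →
        ∀ A : ValuationSubring (AlgebraicClosure ℚ),
        A.LiesOverPrime ℓ → ∀ σ : GQ, A.IsFrobeniusAt σ ℓ →
          r σ * r σ - a ℓ • r σ + (ℓ : O) • (1 : Module.End O Λ) = 0) := by
    intro q hq hqN
    obtain ⟨M, hqM, ⟨D⟩⟩ := hG N p q hq hqN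
    exact ⟨M, hqM, exists_lattice_of_datum D (↑S : Set ℕ) hpS hNS O hpO ι χ⟩
  -- the base lattice
  obtain ⟨q0, hq0, hq0p⟩ := Nat.exists_infinite_primes (N * p + 1)
  have hNp : N * p ≠ 0 := Nat.mul_ne_zero (NeZero.ne N) hpp.ne_zero
  have hq0N : ¬ q0 ∣ N * p := fun h => by
    have := Nat.le_of_dvd (Nat.pos_of_ne_zero hNp) h
    omega
  obtain ⟨M0, hqM0, Λ0, _, _, _, _, _, r0, hc0, hu0, hES0⟩ := key q0 hq0p hq0N
  have hM0 : M0 ≠ 0 := fun h => hqM0 (h ▸ dvd_zero _)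
  -- Frobenius values of ε
  have hεF : ∀ (B : Finset ℕ), S ⊆ B → ∀ ℓ : ℕ, ℓ.Prime → ℓ ∉ B →
      ∀ A : ValuationSubring (AlgebraicClosure ℚ),
      A.LiesOverPrime ℓ → ∀ σ : GQ, A.IsFrobeniusAt σ ℓ → ((ε σ : Oˣ) : O) = (ℓ : O) := by
    intro B hB ℓ hℓ hℓB A hA σ hσ
    exact cycloO_frobenius ι hℓ (fun h => hℓB (hB (h ▸ hpS))) A hA σ hσ
  have ht0 : ∀ g : GQ, ∃ t : O, r0 g + ((ε g : Oˣ) : O) • r0 g⁻¹ = t • 1 := by
    intro g
    refine exists_scalar hFD r0 hc0 ε hεc (S ∪ M0.primeFactors) a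
      (hεF _ Finset.subset_union_left) ?_ g
    intro ℓ hℓ hℓB A hA σ hσ
    rw [Finset.mem_union, not_or] at hℓB
    refine hES0 ℓ hℓ (by simpa using hℓB.1) (fun h => hℓB.2 ?_) A hA σ hσ
    exact Nat.mem_primeFactors.2 ⟨hℓ, h, hM0⟩
  choose t0 ht0 using ht0
  -- the comparison principle
  have cmp : ∀ (Λ : Type) [AddCommGroup Λ] [Module O Λ] [Module.Free O Λ] [Module.Finite O Λ]
      [Nontrivial Λ] (r : GQ →* Module.End O Λ), GaloisActionIsAdicContinuous O r →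
      ∀ B : Finset ℕ,
        (∀ ℓ : ℕ, ℓ.Prime → ℓ ∉ B → ∀ A : ValuationSubring (AlgebraicClosure ℚ),
          A.LiesOverPrime ℓ → ∀ σ : GQ, A.IsFrobeniusAt σ ℓ →
            r σ * r σ - a ℓ • r σ + (ℓ : O) • (1 : Module.End O Λ) = 0) →
        ∀ (g : GQ) (s : O), r g + ((ε g : Oˣ) : O) • r g⁻¹ = s • 1 → t0 g = s := by
    intro Λ _ _ _ _ _ r hc B hES g s hs
    have hB0 : ∀ ℓ : ℕ, ℓ.Prime → ℓ ∉ S ∪ M0.primeFactors ∪ B →
        ℓ ∉ (↑S : Set ℕ) ∧ ¬ ℓ ∣ M0 ∧ ℓ ∉ B := by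
      intro ℓ hℓ hℓB
      rw [Finset.mem_union, Finset.mem_union, not_or, not_or] at hℓB
      exact ⟨by simpa using hℓB.1.1, fun h => hℓB.1.2 (Nat.mem_primeFactors.2 ⟨hℓ, h, hM0⟩),
        hℓB.2⟩
    refine scalar_unique hFD r0 hc0 r hc ε hεc (S ∪ M0.primeFactors ∪ B) a
      (hεF _ (Finset.subset_union_left.trans Finset.subset_union_left)) ?_ ?_ g (t0 g) s
      (ht0 g) hs
    · intro ℓ hℓ hℓB A hA σ hσ
      obtain ⟨h1, h2, h3⟩ := hB0 ℓ hℓ hℓB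
      exact hES0 ℓ hℓ h1 h2 A hA σ hσ
    · intro ℓ hℓ hℓB A hA σ hσ
      obtain ⟨h1, h2, h3⟩ := hB0 ℓ hℓ hℓB
      exact hES ℓ hℓ h3 A hA σ hσ
  -- the rank two representation
  obtain ⟨V, _, _, _, _, ρ, hrk, hchar, hcont, hker⟩ :=
    exists_rank_two r0 ε complexConjugation complexConjugation_mul_self
      (cycloO_complexConjugation ι) t0 ht0
  have hρc : GaloisActionIsAdicContinuous O ρ := by
    intro n
    obtain ⟨L, hL, h1⟩ := hc0 n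
    obtain ⟨F, hF, h2⟩ := hεc n
    refine ⟨L ⊔ F, IntermediateField.finiteDimensional_sup L F, fun σ hσ v => ?_⟩
    exact hcont n σ (h1 σ fun x hx => hσ x ((le_sup_left : L ≤ L ⊔ F) hx))
      (h2 σ fun x hx => hσ x ((le_sup_right : F ≤ L ⊔ F) hx)) v
  refine ⟨⟨V, hrk, ρ, hρc⟩, t0, hchar, ?_, cmp⟩
  intro ℓ hℓ hℓN hℓS A hA σ hσ
  have hℓp : ℓ ≠ p := fun h => hℓS (h ▸ hpS)
  have hℓNp : ¬ ℓ ∣ N * p := by
    intro h
    rcases (Nat.Prime.dvd_mul hℓ).1 h with h | h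
    · exact hℓN h
    · exact hℓp ((Nat.prime_dvd_prime_iff_eq hℓ hpp).1 h)
  obtain ⟨M, hℓM, Λ, _, _, _, _, _, r, hc, hu, hES⟩ := key ℓ hℓ hℓNp
  have hM : M ≠ 0 := fun h => hℓM (h ▸ dvd_zero _)
  have h1 := scalar_of_quadratic r σ _ _ (hES ℓ hℓ hℓS hℓM A hA σ hσ)
  rw [← cycloO_frobenius ι hℓ hℓp A hA σ hσ] at h1
  have h2 := cmp Λ r hc (S ∪ M.primeFactors) (by
    intro ℓ' hℓ' hℓB A' hA' σ' hσ'
    rw [Finset.mem_union, not_or] at hℓB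
    refine hES ℓ' hℓ' (by simpa using hℓB.1) (fun h => hℓB.2 ?_) A' hA' σ' hσ'
    exact Nat.mem_primeFactors.2 ⟨hℓ', h, hM⟩) σ _ h1
  rw [h2, ha, eigA_eq _ χ hℓ hℓN hℓS]

end Fermat.Agent.DR
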