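import Fermat.Agent.GAL.DVRExt
import Fermat.Agent.GAL.ModP.Eigen
import Fermat.Agent.S22
import Fermat.Prelude.Def_CuspForm_HeckeAlgebra

set_option autoImplicit false
set_option linter.style.haveILetI false

/-!
# DR/S35 : extending the coefficient embedding to ALL good Hecke eigenvalues

The hypothesis of S35 gives `iota` only on the ring generated by the `a_ℓ(g)`, `ℓ ∉ S`. After a
finite extension `O''` of `O'` it extends to the ring `R` generated by all `a_ℓ(g)`, `ℓ ∤ N`.
-/

namespace Fermat.Agent.DR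

open CuspForm CongruenceSubgroup ModularFormClass

namespace ExtIota

/-- a ring homomorphism from a domain, integral over `ℤ`, to a ring of characteristic zero is
injective. -/
theorem injective_of_integral {B C : Type} [CommRing B] [IsDomain B] [CommRing C] [CharZero C]
    (hB : ∀ x : B, IsIntegral ℤ x) (f : B →+* C) : Function.Injective f := by
  rw [injective_iff_map_eq_zero]
  intro a ha
  by_contra ha0
  obtain ⟨r, hr, hdvd⟩ := (hB a).isAlgebraic.exists_nonzero_dvd (mem_nonZeroDivisors_of_ne_zero ha0)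
  have h1 : f a ∣ f (algebraMap ℤ B r) := map_dvd f hdvd
  rw [ha, zero_dvd_iff] at h1
  have h2 : f (algebraMap ℤ B r) = (r : C) := by simp
  rw [h2] at h1
  exact hr (by exact_mod_cast h1)

/-- an element of a field which is a fraction of elements of an integrally closed subalgebra and is
integral over it belongs to it. -/
theorem mem_of_isIntegral_of_frac {O E : Type} [CommRing O] [Field E] [Algebra O E]
    (O2 : Subalgebra O E) [IsIntegrallyClosed O2] {x : E} (hx : IsIntegral O2 x)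
    (a b : O2) (hb : b ≠ 0) (hab : x * (b : E) = (a : E)) : x ∈ O2 := by
  let K2 := FractionRing O2
  have hinj : Function.Injective (Algebra.ofId O2 E) := Subtype.val_injective
  let ι : K2 →ₐ[O2] E := IsFractionRing.liftAlgHom (K := K2) hinj
  have hι : Function.Injective ι := ι.toRingHom.injective
  let y : K2 := algebraMap O2 K2 a / algebraMap O2 K2 b
  have hb' : algebraMap O2 K2 b ≠ 0 := by
    intro h
    exact hb ((IsFractionRing.injective O2 K2) (by simpa using h))
  have hbE : (b : E) ≠ 0 := by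
    intro h
    exact hb (Subtype.ext h)
  have hy : ι y = x := by
    have h1 : ι y * (b : E) = (a : E) := by
      have h2 : ι (algebraMap O2 K2 b) = (b : E) := ι.commutes b
      have h3 : ι (algebraMap O2 K2 a) = (a : E) := ι.commutes a
      rw [← h2, ← map_mul, ← h3]
      congr 1
      exact div_mul_cancel₀ _ hb'
    exact mul_right_cancel₀ hbE (h1.trans hab.symm)
  have hyint : IsIntegral O2 y := by
    rw [← hy] at hx
    exact (isIntegral_algHom_iff ι hι).mp hx
  obtain ⟨c, hc⟩ := IsIntegrallyClosed.isIntegral_iff.mp hyint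
  rw [← hy, ← hc]
  have : ι (algebraMap O2 K2 c) = (c : E) := ι.commutes c
  rw [this]
  exact c.2

/-- the abstract statement. -/
theorem exists_ext_aux (A₀ : Subring ℂ) (s : Finset ℂ)
    (hA : ∀ x ∈ A₀, IsIntegral ℤ x) (hs : ∀ x ∈ s, IsIntegral ℤ x)
    (O' : Type) [CommRing O'] [IsDomain O'] [IsDiscreteValuationRing O']
    [IsAdicComplete (IsLocalRing.maximalIdeal O') O'] [Finite (IsLocalRing.ResidueField O')]
    [CharZero O'] (iota : A₀ →+* O')
    (E : Type) [Field E] [IsAlgClosed E] [Algebra O' E]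
    (hOE : Function.Injective (algebraMap O' E)) :
    ∃ (O'' : Type) (_ : CommRing O'') (_ : IsDomain O'') (_ : IsDiscreteValuationRing O'')
      (_ : IsAdicComplete (IsLocalRing.maximalIdeal O'') O'')
      (_ : Finite (IsLocalRing.ResidueField O'')) (_ : CharZero O'') (_ : Algebra O' O'')
      (_ : Module.Finite O' O'') (_ : IsLocalHom (algebraMap O' O'')),
      Function.Injective (algebraMap O' O'') ∧
      ∃ (R : Subring ℂ) (φ : R →+* O''), Function.Injective φ ∧ A₀ ≤ R ∧ (↑s : Set ℂ) ⊆ R ∧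
        ∀ (x : ℂ) (h₀ : x ∈ A₀) (h : x ∈ R), φ ⟨x, h⟩ = algebraMap O' O'' (iota ⟨x, h₀⟩) := by
  classical
  let R : Subring ℂ := Subring.closure ((A₀ : Set ℂ) ∪ (↑s : Set ℂ))
  have hA₀R : A₀ ≤ R := fun x hx => Subring.subset_closure (Or.inl hx)
  have hsR : (↑s : Set ℂ) ⊆ R := fun x hx => Subring.subset_closure (Or.inr hx)
  have hRint : ∀ x ∈ R, IsIntegral ℤ x := by
    intro x hx
    induction hx using Subring.closure_induction with
    | mem x hx =>
      rcases hx with hx | hx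
      · exact hA x hx
      · exact hs x hx
    | zero => exact isIntegral_zero
    | one => exact isIntegral_one
    | add x y _ _ hx hy => exact hx.add hy
    | neg x _ hx => exact hx.neg
    | mul x y _ _ hx hy => exact hx.mul hy
  have hRint' : ∀ x : R, IsIntegral ℤ x := by
    intro x
    have := hRint x x.2
    exact (isIntegral_algHom_iff (R.subtype.toIntAlgHom) Subtype.val_injective).mp this
  have hAint' : ∀ x : A₀, IsIntegral ℤ x := by
    intro x
    have := hA x x.2
    exact (isIntegral_algHom_iff (A₀.subtype.toIntAlgHom) Subtype.val_injective).mp this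
  haveI : CharZero E := charZero_of_injective_algebraMap hOE
  let j₀ : A₀ →+* E := (algebraMap O' E).comp iota
  have hj₀ : Function.Injective j₀ := injective_of_integral hAint' j₀
  letI : Algebra A₀ E := j₀.toAlgebra
  letI : Algebra A₀ R := (Subring.inclusion hA₀R).toAlgebra
  haveI : FaithfulSMul A₀ E := (faithfulSMul_iff_algebraMap_injective A₀ E).mpr hj₀
  haveI : FaithfulSMul A₀ R :=
    (faithfulSMul_iff_algebraMap_injective A₀ R).mpr (Subring.inclusion_injective hA₀R)
  haveI : Algebra.IsAlgebraic A₀ R := by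
    refine ⟨fun x => ?_⟩
    exact ((hRint' x).tower_top (A := A₀)).isAlgebraic
  let φE : R →ₐ[A₀] E := IsAlgClosed.lift
  have hφE : Function.Injective φE := injective_of_integral hRint' φE.toRingHom
  have hφEint : ∀ x : R, IsIntegral ℤ (φE x) := fun x => (hRint' x).map φE.toRingHom.toIntAlgHom
  -- the new generators
  let s' : Finset E := (s.attach).image (fun x => φE ⟨x.1, hsR x.2⟩)
  have hs' : ∀ x ∈ s', IsAlgebraic O' x := by
    intro x hx
    obtain ⟨y, -, rfl⟩ := Finset.mem_image.mp hx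
    exact ((hφEint _).tower_top (A := O')).isAlgebraic
  obtain ⟨O2, hdvr, hcomp, hfin, hmf, hloc, hfrac⟩ := GAL.exists_dvrExt O' E hOE s' hs'
  have hmem : ∀ x : R, φE x ∈ O2 := by
    rintro ⟨x, hx⟩
    induction hx using Subring.closure_induction with
    | mem x hx =>
      rcases hx with hx | hx
      · have : φE ⟨x, Subring.subset_closure (Or.inl hx)⟩ = algebraMap O' E (iota ⟨x, hx⟩) :=
          φE.commutes ⟨x, hx⟩
        rw [this]
        exact O2.algebraMap_mem _
      · have hx' : φE ⟨x, Subring.subset_closure (Or.inr hx)⟩ ∈ s' :=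
          Finset.mem_image.mpr ⟨⟨x, hx⟩, Finset.mem_attach _ _, rfl⟩
        obtain ⟨a, b, hb, hab⟩ := hfrac _ hx'
        exact mem_of_isIntegral_of_frac O2 ((hφEint _).tower_top (A := O2)) a b hb hab
    | zero => exact (map_zero φE) ▸ O2.zero_mem
    | one => exact (map_one φE) ▸ O2.one_mem
    | add x y hx hy hx' hy' =>
      have : φE ⟨x + y, R.add_mem hx hy⟩ = φE ⟨x, hx⟩ + φE ⟨y, hy⟩ := map_add φE ⟨x, hx⟩ ⟨y, hy⟩
      rw [this]
      exact O2.add_mem hx' hy'
    | neg x hx hx' =>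
      have : φE ⟨-x, R.neg_mem hx⟩ = - φE ⟨x, hx⟩ := map_neg φE ⟨x, hx⟩
      rw [this]
      exact O2.neg_mem hx'
    | mul x y hx hy hx' hy' =>
      have : φE ⟨x * y, R.mul_mem hx hy⟩ = φE ⟨x, hx⟩ * φE ⟨y, hy⟩ := map_mul φE ⟨x, hx⟩ ⟨y, hy⟩
      rw [this]
      exact O2.mul_mem hx' hy'
  let φ : R →+* O2 := φE.toRingHom.codRestrict O2.toSubring hmem
  have hO2inj : Function.Injective (algebraMap O' O2) := by
    intro a b hab
    exact hOE (congrArg Subtype.val hab)
  haveI : CharZero O2 := charZero_of_injective_algebraMap hO2inj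
  refine ⟨O2, inferInstance, inferInstance, hdvr, hcomp, hfin, inferInstance, inferInstance, hmf,
    hloc, hO2inj, R, φ, ?_, hA₀R, hsR, ?_⟩
  · intro x y hxy
    exact hφE (congrArg Subtype.val hxy)
  · intro x h₀ h
    apply Subtype.ext
    exact φE.commutes ⟨x, h₀⟩

/-- the abstract statement. -/
theorem exists_ext (A₀ : Subring ℂ) (s : Finset ℂ)
    (hA : ∀ x ∈ A₀, IsIntegral ℤ x) (hs : ∀ x ∈ s, IsIntegral ℤ x)
    (O' : Type) [CommRing O'] [IsDomain O'] [IsDiscreteValuationRing O']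
    [IsAdicComplete (IsLocalRing.maximalIdeal O') O'] [Finite (IsLocalRing.ResidueField O')]
    [CharZero O'] (iota : A₀ →+* O') :
    ∃ (O'' : Type) (_ : CommRing O'') (_ : IsDomain O'') (_ : IsDiscreteValuationRing O'')
      (_ : IsAdicComplete (IsLocalRing.maximalIdeal O'') O'')
      (_ : Finite (IsLocalRing.ResidueField O'')) (_ : CharZero O'') (_ : Algebra O' O'')
      (_ : Module.Finite O' O'') (_ : IsLocalHom (algebraMap O' O'')),
      Function.Injective (algebraMap O' O'') ∧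
      ∃ (R : Subring ℂ) (φ : R →+* O''), Function.Injective φ ∧ A₀ ≤ R ∧ (↑s : Set ℂ) ⊆ R ∧
        ∀ (x : ℂ) (h₀ : x ∈ A₀) (h : x ∈ R), φ ⟨x, h⟩ = algebraMap O' O'' (iota ⟨x, h₀⟩) :=
  exists_ext_aux A₀ s hA hs O' iota (AlgebraicClosure (FractionRing O'))
    ((algebraMap (FractionRing O') (AlgebraicClosure (FractionRing O'))).injective.comp
      (IsFractionRing.injective O' (FractionRing O')))

theorem isIntegral_qCoeff {N : ℕ} [NeZero N] {g : CuspForm (Gamma0 N) 2}
    (hg : g.IsNormalizedEigenform) {ℓ : ℕ} (hℓ : ℓ.Prime) (hℓN : ¬ ℓ ∣ N) :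
    IsIntegral ℤ (qCoeff g ℓ) := by
  haveI : Module.Finite ℤ (CuspForm.heckeAlgebra N 2 (∅ : Set ℕ)) := Fermat.Agent.S22.result N 2 ∅
  have h1 : IsIntegral ℤ (CuspForm.heckeAlgebra.T (k := 2) (S := (∅ : Set ℕ)) hℓ hℓN
      (Set.notMem_empty ℓ)) := IsIntegral.of_finite ℤ _
  have h2 : IsIntegral ℤ (CuspForm.heckeTLin 2 hℓ hℓN) :=
    h1.map (CuspForm.heckeAlgebra N 2 (∅ : Set ℕ)).val
  obtain ⟨p, hp, hp0⟩ := h2
  refine ⟨p, hp, ?_⟩
  have h3 : Polynomial.aeval (CuspForm.heckeTLin 2 hℓ hℓN) (p.map (Int.castRingHom ℂ)) = 0 := by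
    rw [Polynomial.aeval_def, Polynomial.eval₂_map]
    have : (algebraMap ℂ (Module.End ℂ (CuspForm (Gamma0 N) 2))).comp (Int.castRingHom ℂ) =
        algebraMap ℤ (Module.End ℂ (CuspForm (Gamma0 N) 2)) := RingHom.ext_int _ _
    rw [this]
    exact hp0
  have h4 := Module.End.aeval_apply_of_mem_apply_eq_smul (p := p.map (Int.castRingHom ℂ))
    (GAL.ModP.heckeTLin_eq_smul hg hℓ hℓN)
  rw [h3, LinearMap.zero_apply] at h4
  have h5 := (smul_eq_zero.mp h4.symm).resolve_right (GAL.ModP.eigenform_ne_zero hg)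
  rwa [Polynomial.eval_map] at h5

theorem isIntegral_chig {N : ℕ} [NeZero N] (S : Set ℕ)
    (chig : CuspForm.heckeAlgebra N 2 S →+* ℂ) (x : ℂ) (hx : x ∈ chig.range) :
    IsIntegral ℤ x := by
  haveI : Module.Finite ℤ (CuspForm.heckeAlgebra N 2 S) := Fermat.Agent.S22.result N 2 S
  obtain ⟨t, rfl⟩ := hx
  exact (IsIntegral.of_finite ℤ t).map chig.toIntAlgHom

end ExtIota

open ExtIota in
/-- Proof. `A₀ := chig.range`, `R := Subring.closure (A₀ ∪ {a_ℓ(g) | ℓ ∈ S, ℓ prime, ℓ ∤ N})`.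
* every element of `R` is integral over `ℤ`: `chig t` because `heckeAlgebra N 2 S` is a finite
  `ℤ`-module (`Fermat.Agent.S22.result`), `a_ℓ(g)` because it is the value at `T_ℓ` of the
  eigencharacter of `g` on `heckeAlgebra N 2 ∅` (`GAL.heckeTLin_eq_smul`; or: `T_ℓ` is integral and
  `T_ℓ g = a_ℓ g`, `g ≠ 0`, so `a_ℓ` is a root of the same monic polynomial);
* `iota` is injective (its kernel is a prime of the integral domain `A₀`, integral over `ℤ`,
  meeting `ℤ` in `0` since `O'` has characteristic zero);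
* `E := AlgebraicClosure (FractionRing O')` is an `A₀`-algebra through `iota`; `IsAlgClosed.lift`
  gives `φE : R →ₐ[A₀] E`, injective for the same reason;
* `GAL.exists_dvrExt O' E s` with `s` the image of the finitely many new generators; `φE` takes
  values in `O2` because `O2` is integrally closed and the values are integral and lie in its
  fraction field. `O'' := O2`. -/
theorem exists_ext_iota {N : ℕ} [NeZero N] {g : CuspForm (Gamma0 N) 2}
    (hg : g.IsNormalizedEigenform) (S : Finset ℕ)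
    (O' : Type) [CommRing O'] [IsDomain O'] [IsDiscreteValuationRing O']
    [IsAdicComplete (IsLocalRing.maximalIdeal O') O'] [Finite (IsLocalRing.ResidueField O')]
    [CharZero O']
    (chig : CuspForm.heckeAlgebra N 2 (↑S : Set ℕ) →+* ℂ)
    (hchig : ∀ (ℓ : ℕ) (hℓ : ℓ.Prime) (hℓN : ¬ ℓ ∣ N) (hℓS : ℓ ∉ (↑S : Set ℕ)),
      chig (CuspForm.heckeAlgebra.T hℓ hℓN hℓS) = qCoeff g ℓ)
    (iota : chig.range →+* O') :
    ∃ (O'' : Type) (_ : CommRing O'') (_ : IsDomain O'') (_ : IsDiscreteValuationRing O'')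
      (_ : IsAdicComplete (IsLocalRing.maximalIdeal O'') O'')
      (_ : Finite (IsLocalRing.ResidueField O'')) (_ : CharZero O'') (_ : Algebra O' O'')
      (_ : Module.Finite O' O'') (_ : IsLocalHom (algebraMap O' O'')),
      Function.Injective (algebraMap O' O'') ∧
      ∃ (R : Subring ℂ) (φ : R →+* O''), Function.Injective φ ∧
        (∀ ℓ : ℕ, ℓ.Prime → ¬ ℓ ∣ N → qCoeff g ℓ ∈ R) ∧
        ∀ (ℓ : ℕ) (hℓ : ℓ.Prime) (hℓN : ¬ ℓ ∣ N) (hℓS : ℓ ∉ (↑S : Set ℕ))
          (h : qCoeff g ℓ ∈ R), φ ⟨qCoeff g ℓ, h⟩ =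
            algebraMap O' O'' ((iota.comp chig.rangeRestrict) (CuspForm.heckeAlgebra.T hℓ hℓN hℓS)) := by
  classical
  let s : Finset ℂ := (S.filter (fun ℓ => ℓ.Prime ∧ ¬ ℓ ∣ N)).image (fun ℓ => qCoeff g ℓ)
  have hs : ∀ x ∈ s, IsIntegral ℤ x := by
    intro x hx
    obtain ⟨ℓ, hℓ, rfl⟩ := Finset.mem_image.mp hx
    rw [Finset.mem_filter] at hℓ
    exact isIntegral_qCoeff hg hℓ.2.1 hℓ.2.2
  obtain ⟨O'', i1, i2, i3, i4, i5, i6, i7, i8, i9, hinj, R, φ, hφ, hAR, hsR, hcomp⟩ :=
    exists_ext chig.range s (isIntegral_chig _ chig) hs O' iota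
  refine ⟨O'', i1, i2, i3, i4, i5, i6, i7, i8, i9, hinj, R, φ, hφ, ?_, ?_⟩
  · intro ℓ hℓ hℓN
    by_cases hℓS : ℓ ∈ S
    · apply hsR
      exact Finset.mem_coe.mpr (Finset.mem_image.mpr ⟨ℓ, Finset.mem_filter.mpr ⟨hℓS, hℓ, hℓN⟩, rfl⟩)
    · apply hAR
      exact ⟨_, hchig ℓ hℓ hℓN (by simpa using hℓS)⟩
  · intro ℓ hℓ hℓN hℓS h
    have h₀ : qCoeff g ℓ ∈ chig.range := ⟨_, hchig ℓ hℓ hℓN hℓS⟩
    rw [hcomp _ h₀ h, RingHom.comp_apply]
    have h1 : (⟨qCoeff g ℓ, h₀⟩ : chig.range) =
        chig.rangeRestrict (CuspForm.heckeAlgebra.T hℓ hℓN hℓS) :=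
      Subtype.ext (hchig ℓ hℓ hℓN hℓS).symm
    rw [h1]

end Fermat.Agent.DR
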