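import Mathlib

set_option autoImplicit false

/-!
# DR/S35 : inclusions of kernels of matrices are stable under injective base change of domains
-/

namespace Fermat.Agent.DR

theorem exists_comp_eq_of_ker_le_aux {K V W U : Type*} [Field K] [AddCommGroup V] [Module K V]
    [AddCommGroup W] [Module K W] [AddCommGroup U] [Module K U]
    (f : V →ₗ[K] W) (g : V →ₗ[K] U) (h : LinearMap.ker f ≤ LinearMap.ker g) :
    ∃ c : W →ₗ[K] U, c ∘ₗ f = g := by
  let h0 : LinearMap.range f →ₗ[K] U :=
    ((LinearMap.ker f).liftQ g h) ∘ₗ (f.quotKerEquivRange.symm : LinearMap.range f →ₗ[K] _)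
  obtain ⟨c, hc⟩ := LinearMap.exists_extend h0
  refine ⟨c, ?_⟩
  ext v
  have h1 : c (f v) = h0 ⟨f v, LinearMap.mem_range_self f v⟩ := by
    rw [← hc]; rfl
  rw [LinearMap.comp_apply, h1]
  show ((LinearMap.ker f).liftQ g h) (f.quotKerEquivRange.symm ⟨f v, _⟩) = g v
  have h2 : f.quotKerEquivRange.symm ⟨f v, LinearMap.mem_range_self f v⟩
      = (LinearMap.ker f).mkQ v := by
    rw [LinearEquiv.symm_apply_eq]
    rfl
  rw [h2]
  rfl

/-- Proof. Let `K = FractionRing R`. `ker A_K ≤ ker B_K` (clear denominators), hence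
`B_K = C_K * A_K` for a matrix `C_K` over `K` (a linear map vanishing on the kernel of another one
factors through it; extend from the range). Choose `d ≠ 0` with `d • C_K` integral, `= C`. Then
`d • B = C * A` over `R`, so `ι d • (B.map ι *ᵥ x) = C.map ι *ᵥ (A.map ι *ᵥ x) = 0`. -/
theorem mulVec_eq_zero_of_ker_le {R O : Type*} [CommRing R] [IsDomain R] [CommRing O] [IsDomain O]
    {m n l : Type*} [Fintype m] [Fintype n] [Fintype l] [DecidableEq m] [DecidableEq n]
    [DecidableEq l]
    (A : Matrix m n R) (B : Matrix l n R)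
    (h : ∀ x : n → R, A.mulVec x = 0 → B.mulVec x = 0)
    (ι : R →+* O) (hι : Function.Injective ι)
    (x : n → O) (hx : (A.map ι).mulVec x = 0) : (B.map ι).mulVec x = 0 := by
  classical
  let K := FractionRing R
  let φ : R →+* K := algebraMap R K
  have hφ : Function.Injective φ := IsFractionRing.injective R K
  let AK : Matrix m n K := A.map φ
  let BK : Matrix l n K := B.map φ
  -- kernels over `K`
  have hker : LinearMap.ker AK.mulVecLin ≤ LinearMap.ker BK.mulVecLin := by
    intro y hy
    rw [LinearMap.mem_ker, Matrix.mulVecLin_apply] at hy ⊢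
    obtain ⟨d, hd⟩ := IsLocalization.exist_integer_multiples_of_finset (nonZeroDivisors R)
      (Finset.univ.image y)
    have hd' : ∀ i, ∃ r : R, φ r = (d : R) • y i := fun i =>
      hd (y i) (Finset.mem_image_of_mem y (Finset.mem_univ i))
    choose y' hy' using hd'
    have hy'' : (fun i => φ (y' i)) = φ (d : R) • y := by
      funext i
      rw [hy' i, Pi.smul_apply, Algebra.smul_def, smul_eq_mul]
    have h1 : A.mulVec y' = 0 := by
      funext i
      apply hφ
      have := RingHom.map_mulVec φ A y' i
      rw [this, Pi.zero_apply, map_zero]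
      have h3 : (φ ∘ y') = φ (d : R) • y := hy''
      rw [h3, Matrix.mulVec_smul]
      show (φ (d : R) • AK.mulVec y) i = 0
      rw [hy]; simp
    have h2 := h y' h1
    have h4 : φ (d : R) • BK.mulVec y = 0 := by
      rw [← Matrix.mulVec_smul, ← hy'']
      funext i
      have := RingHom.map_mulVec φ B y' i
      rw [h2, Pi.zero_apply, map_zero] at this
      exact this.symm
    have hd0 : φ (d : R) ≠ 0 := by
      rw [Ne, map_eq_zero_iff φ hφ]
      exact nonZeroDivisors.ne_zero d.2
    exact (smul_eq_zero.mp h4).resolve_left hd0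
  obtain ⟨c, hc⟩ := exists_comp_eq_of_ker_le_aux AK.mulVecLin BK.mulVecLin hker
  let CK : Matrix l m K := LinearMap.toMatrix' c
  have hCK : CK * AK = BK := by
    have : (CK * AK).mulVecLin = BK.mulVecLin := by
      rw [Matrix.mulVecLin_mul, ← hc]
      congr 1
      exact Matrix.toLin'_toMatrix' c
    exact Matrix.toLin'.injective this
  -- clear denominators of `CK`
  obtain ⟨d, hd⟩ := IsLocalization.exist_integer_multiples_of_finset (nonZeroDivisors R)
    ((Finset.univ : Finset (l × m)).image fun ij => CK ij.1 ij.2)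
  have hd' : ∀ i j, ∃ r : R, φ r = (d : R) • CK i j := fun i j =>
    hd (CK i j) (Finset.mem_image_of_mem (fun ij : l × m => CK ij.1 ij.2) (Finset.mem_univ (i, j)))
  choose C hC using hd'
  let CM : Matrix l m R := Matrix.of C
  have hCM : CM.map φ = φ (d : R) • CK := by
    ext i j
    show φ (C i j) = _
    rw [hC i j, Matrix.smul_apply, Algebra.smul_def, smul_eq_mul]
  have hrel : CM * A = (d : R) • B := by
    apply Matrix.map_injective hφ
    show (CM * A).map φ = ((d : R) • B).map φ
    rw [Matrix.map_mul, hCM]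
    show φ (d : R) • CK * AK = _
    rw [Matrix.smul_mul, hCK]
    ext i j
    simp [BK]
  have h5 : ι (d : R) • (B.map ι).mulVec x = 0 := by
    have h6 : ((d : R) • B).map ι = ι (d : R) • B.map ι := by
      ext i j; simp
    rw [← Matrix.smul_mulVec, ← h6, ← hrel, Matrix.map_mul, ← Matrix.mulVec_mulVec, hx,
      Matrix.mulVec_zero]
  have hd0 : ι (d : R) ≠ 0 := by
    rw [Ne, map_eq_zero_iff ι hι]
    exact nonZeroDivisors.ne_zero d.2
  exact (smul_eq_zero.mp h5).resolve_left hd0

/-- A ring homomorphism from `ℤ_p` to a domain of characteristic zero is injective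
(its kernel is a prime ideal not containing `p`). -/
theorem padicInt_ringHom_injective {p : ℕ} [Fact p.Prime] {O : Type*} [CommRing O] [IsDomain O]
    [CharZero O] (ι : ℤ_[p] →+* O) : Function.Injective ι := by
  rw [injective_iff_map_eq_zero]
  intro x hx
  by_contra hx0
  have h1 := PadicInt.unitCoeff_spec hx0
  rw [h1, map_mul, map_pow, map_natCast] at hx
  rcases mul_eq_zero.mp hx with h2 | h2
  · exact ((PadicInt.unitCoeff hx0).isUnit.map ι).ne_zero h2
  · have hp : (p : O) ≠ 0 := Nat.cast_ne_zero.mpr (Fact.out : p.Prime).ne_zero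
    exact pow_ne_zero _ hp h2

end Fermat.Agent.DR
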