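import Fermat.Agent.GAL.Interface

set_option autoImplicit false

/-!
# DR/S35 : the matrix level datum consumed by the S35 assembly

`NewDatum M q p` (level `N = M * q`, `q ∤ M`, `q ≠ p`): the Eichler-Shimura datum of level `M q`
(lattice `ℤ^r`, Hecke matrices `T ℓ`, period map, `p`-adic Galois action `ρ`), the Hecke lattice
`ℤ^r'` of level `M`, and over `ℤ_p` the Atkin-Lehner involution `W` and the push-forward
`P = α_*`, with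

  `(ρ φ + q W)(ρ φ + W) x = 0`   for `x ∈ ker P ∩ ker P W`, `φ` a Frobenius element at `q`.
-/

namespace Fermat.Agent.DR

open Fermat.Agent.GAL CongruenceSubgroup

/-- cast of an integral matrix -/
abbrev zc {m n : Type*} (R : Type*) [Ring R] (A : Matrix m n ℤ) : Matrix m n R :=
  A.map (Int.castRingHom R)

structure NewDatum (M q p : ℕ) [NeZero M] [NeZero q] [Fact p.Prime] where
  /- level `M q` -/
  r : ℕ
  T : ℕ → Matrix (Fin r) (Fin r) ℤ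
  T_comm : ∀ ℓ ℓ' : ℕ, T ℓ * T ℓ' = T ℓ' * T ℓ
  per : CuspForm (Gamma0 (M * q)) 2 →ₗ[ℂ] (Fin r → ℂ)
  per_injective : Function.Injective per
  per_T : ∀ (ℓ : ℕ) (hℓ : ℓ.Prime) (hℓN : ¬ ℓ ∣ M * q) (f : CuspForm (Gamma0 (M * q)) 2),
    per (CuspForm.heckeTLin 2 hℓ hℓN f) = (zc ℂ (T ℓ)).mulVec (per f)
  ρ : GQ →* Matrix (Fin r) (Fin r) ℤ_[p]
  ρ_T : ∀ (σ : GQ) (ℓ : ℕ), ℓ.Prime → ¬ ℓ ∣ M * q → ρ σ * zc ℤ_[p] (T ℓ) = zc ℤ_[p] (T ℓ) * ρ σ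
  ρ_cont : ∀ k : ℕ, ∃ F : IntermediateField ℚ (AlgebraicClosure ℚ), FiniteDimensional ℚ F ∧
    ∀ σ : GQ, (∀ x ∈ F, σ x = x) → ∀ i j, (p : ℤ_[p]) ^ k ∣ (ρ σ - 1) i j
  /-- the finite set of primes where the Eichler-Shimura relation is not claimed -/
  bad : Finset ℕ
  ρ_ES : ∀ ℓ : ℕ, ℓ.Prime → ℓ ∉ bad →
    ∀ A : ValuationSubring (AlgebraicClosure ℚ), A.LiesOverPrime ℓ →
      ∀ σ : GQ, A.IsFrobeniusAt σ ℓ →
        ρ σ * ρ σ - zc ℤ_[p] (T ℓ) * ρ σ + (ℓ : Matrix (Fin r) (Fin r) ℤ_[p]) = 0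
  /- level `M` -/
  r' : ℕ
  T' : ℕ → Matrix (Fin r') (Fin r') ℤ
  T'_comm : ∀ ℓ ℓ' : ℕ, T' ℓ * T' ℓ' = T' ℓ' * T' ℓ
  per' : CuspForm (Gamma0 M) 2 →ₗ[ℂ] (Fin r' → ℂ)
  per'_T : ∀ (ℓ : ℕ) (hℓ : ℓ.Prime) (hℓN : ¬ ℓ ∣ M) (f : CuspForm (Gamma0 M) 2),
    per' (CuspForm.heckeTLin 2 hℓ hℓN f) = (zc ℂ (T' ℓ)).mulVec (per' f)
  /-- the lattice of level `M` is a lattice of periods: an integral matrix killing all period
  vectors vanishes -/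
  per'_faithful : ∀ t : Matrix (Fin r') (Fin r') ℤ,
    (∀ f : CuspForm (Gamma0 M) 2, (zc ℂ t).mulVec (per' f) = 0) → t = 0
  /- degeneracy operators -/
  W : Matrix (Fin r) (Fin r) ℤ_[p]
  W_sq : W * W = 1
  W_T : ∀ ℓ : ℕ, ℓ.Prime → ¬ ℓ ∣ M * q → W * zc ℤ_[p] (T ℓ) = zc ℤ_[p] (T ℓ) * W
  W_ρ : ∀ σ : GQ, W * ρ σ = ρ σ * W
  P : Matrix (Fin r') (Fin r) ℤ_[p]
  P_T : ∀ ℓ : ℕ, ℓ.Prime → ¬ ℓ ∣ M * q → P * zc ℤ_[p] (T ℓ) = zc ℤ_[p] (T' ℓ) * P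
  newFrob : ∀ A : ValuationSubring (AlgebraicClosure ℚ), A.LiesOverPrime q →
    ∀ σ : GQ, A.IsFrobeniusAt σ q → ∀ x : Fin r → ℤ_[p],
      P.mulVec x = 0 → P.mulVec (W.mulVec x) = 0 →
        ((ρ σ + (q : ℤ_[p]) • W) * (ρ σ + W)).mulVec x = 0

/-- **What the geometric side of DR has to deliver for S35.** -/
def NewInput : Prop :=
  ∀ (M q p : ℕ) [NeZero M] [NeZero q] [Fact p.Prime], q.Prime → ¬ q ∣ M → q ≠ p →
    Nonempty (NewDatum M q p)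

end Fermat.Agent.DR
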