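import Fermat.Agent.GAL.ALG.EigenCore
import Fermat.Agent.DR.S35.Datum

set_option autoImplicit false

/-!
# DR/S35 : abstract eigenvector lemmas

* `exists_eigenvector_of_faithful` (A): a character of a commutative ring acting faithfully on
  `ℤ^n` occurs as an eigenvector in `K^n`, for every field `K` (sub-version of
  `GAL.eigen_span_ne_top`, obtained by transposition).
* `exists_eigenCharacter` (E): the eigenvalue character of a common eigenvector.
-/

namespace Fermat.Agent.DR

open Fermat.Agent.GAL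

/-- **(A)** Proof: apply `GAL.eigen_span_ne_top` to `x ↦ (Φ x)ᵀ` (a ring homomorphism because `C`
is commutative); a proper subspace of `K^n` is killed by a nonzero linear form `w ↦ y ⬝ᵥ w`;
`y ⬝ᵥ ((Φ x)ᵀ *ᵥ w - θ x • w) = ((Φ x) *ᵥ y - θ x • y) ⬝ᵥ w`. -/
theorem exists_eigenvector_of_faithful {n : ℕ} {C : Type} [CommRing C]
    (Φ : C →+* Matrix (Fin n) (Fin n) ℤ) (hΦ : Function.Injective Φ)
    {K : Type} [Field K] (θ : C →+* K) :
    ∃ y : Fin n → K, y ≠ 0 ∧ ∀ x : C, (zc K (Φ x)).mulVec y = θ x • y := by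
  let Φt : C →+* Matrix (Fin n) (Fin n) ℤ :=
    { toFun := fun x => (Φ x).transpose
      map_one' := by rw [map_one, Matrix.transpose_one]
      map_mul' := fun x y => by rw [mul_comm x y, map_mul, Matrix.transpose_mul]
      map_zero' := by rw [map_zero, Matrix.transpose_zero]
      map_add' := fun x y => by rw [map_add, Matrix.transpose_add] }
  have hΦt : Function.Injective Φt := fun x y hxy => hΦ (Matrix.transpose_injective hxy)
  have hne := eigen_span_ne_top Φt hΦt θ
  obtain ⟨f, hf0, hf⟩ := Submodule.exists_le_ker_of_lt_top _ (lt_top_iff_ne_top.2 hne)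
  let y : Fin n → K := fun i => f (Pi.single i 1)
  have hfy : ∀ w : Fin n → K, f w = y ⬝ᵥ w := by
    intro w
    rw [LinearMap.pi_apply_eq_sum_univ f w, dotProduct]
    refine Finset.sum_congr rfl fun i _ => ?_
    rw [smul_eq_mul, mul_comm]
    congr 2
    funext j
    simp [Pi.single_apply, eq_comm]
  refine ⟨y, ?_, fun x => ?_⟩
  · intro hy
    apply hf0
    ext w
    simp [hfy, hy]
  · apply dotProduct_eq
    intro w
    have h1 : f (((Φt x).map (Int.castRingHom K)).mulVec w - θ x • w) = 0 :=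
      hf (Submodule.subset_span ⟨x, w, rfl⟩)
    rw [map_sub, map_smul, hfy, hfy, Matrix.dotProduct_mulVec, sub_eq_zero] at h1
    have h2 : (Φt x).map (Int.castRingHom K) = (zc K (Φ x)).transpose := rfl
    rw [h2, Matrix.vecMul_transpose] at h1
    rw [h1, smul_dotProduct]

/-- the eigenvalue relation on the subring of `𝔄 × R` generated by the pairs `(a i, c i)`. -/
theorem EigenAbs_closure_eigen {n : ℕ} {𝔄 ι : Type} [Ring 𝔄]
    (π : 𝔄 →+* Matrix (Fin n) (Fin n) ℤ) (a : ι → 𝔄)
    {R O : Type} [CommRing R] [CommRing O] (φ : R →+* O) (y : Fin n → O) (c : ι → R)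
    (h : ∀ i, (zc O (π (a i))).mulVec y = φ (c i) • y) (x : 𝔄 × R)
    (hx : x ∈ Subring.closure (Set.range (fun i => ((a i, c i) : 𝔄 × R)))) :
    (zc O (π x.1)).mulVec y = φ x.2 • y := by
  set Z : 𝔄 →+* Matrix (Fin n) (Fin n) O := (Int.castRingHom O).mapMatrix.comp π with hZ
  have hZx : ∀ x : 𝔄, zc O (π x) = Z x := fun _ => rfl
  rw [hZx]
  induction hx using Subring.closure_induction with
  | mem x hx =>
    obtain ⟨i, rfl⟩ := hx
    exact h i
  | zero => simp
  | one => simp
  | add x x' _ _ hx hx' =>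
    rw [Prod.fst_add, Prod.snd_add, map_add, map_add, Matrix.add_mulVec, hx, hx', add_smul]
  | neg x _ hx =>
    rw [Prod.fst_neg, Prod.snd_neg, map_neg, map_neg, Matrix.neg_mulVec, hx, neg_smul]
  | mul x x' _ _ hx hx' =>
    rw [Prod.fst_mul, Prod.snd_mul, map_mul, map_mul, ← Matrix.mulVec_mulVec, hx',
      Matrix.mulVec_smul, hx, smul_smul, mul_comm]

/-- the first projection of that subring lies in the subring generated by the `a i`. -/
theorem EigenAbs_closure_fst {𝔄 ι : Type} [Ring 𝔄] (a : ι → 𝔄) {R : Type} [CommRing R]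
    (c : ι → R) (x : 𝔄 × R)
    (hx : x ∈ Subring.closure (Set.range (fun i => ((a i, c i) : 𝔄 × R)))) :
    x.1 ∈ Subring.closure (Set.range a) := by
  induction hx using Subring.closure_induction with
  | mem x hx =>
    obtain ⟨i, rfl⟩ := hx
    exact Subring.subset_closure ⟨i, rfl⟩
  | zero => exact zero_mem _
  | one => exact one_mem _
  | add x x' _ _ hx hx' => exact add_mem hx hx'
  | neg x _ hx => exact neg_mem hx
  | mul x x' _ _ hx hx' => exact mul_mem hx hx'

/-- **(E)** Let `a i` be commuting elements of a ring `𝔄` acting on `ℤ^n` through `π`,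
`y ≠ 0` a vector with entries in a domain `O` which is an eigenvector of every `a i` with
eigenvalue `φ (c i)`, `φ : R → O` an injective ring homomorphism. Then the eigenvalue defines
a ring homomorphism `θ` from the (commutative) ring `C` generated by the `a i` to `R`.
Proof: `C = Subring.closure (Set.range a)` with `Subring.closureCommRingOfComm`; existence of the
eigenvalue by `Subring.closure_induction`, uniqueness because `y ≠ 0`, `O` is a domain and `φ` is
injective. -/
theorem exists_eigenCharacter {n : ℕ} {𝔄 ι : Type} [Ring 𝔄] (π : 𝔄 →+* Matrix (Fin n) (Fin n) ℤ)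
    (a : ι → 𝔄) (ha : ∀ i j, a i * a j = a j * a i)
    {R O : Type} [CommRing R] [CommRing O] [IsDomain O] (φ : R →+* O)
    (hφ : Function.Injective φ) (y : Fin n → O) (hy : y ≠ 0) (c : ι → R)
    (h : ∀ i, (zc O (π (a i))).mulVec y = φ (c i) • y) :
    ∃ (C : Type) (_ : CommRing C) (inc : C →+* 𝔄) (θ : C →+* R),
      Function.Injective inc ∧ (∀ x : C, inc x ∈ Subring.closure (Set.range a)) ∧
      (∀ i, ∃ x : C, inc x = a i ∧ θ x = c i) ∧
      ∀ x : C, (zc O (π (inc x))).mulVec y = φ (θ x) • y := by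
  have hcomm : ∀ x ∈ Set.range (fun i => ((a i, c i) : 𝔄 × R)),
      ∀ x' ∈ Set.range (fun i => ((a i, c i) : 𝔄 × R)), x * x' = x' * x := by
    rintro _ ⟨i, rfl⟩ _ ⟨j, rfl⟩
    exact Prod.ext (ha i j) (mul_comm _ _)
  refine ⟨Subring.closure (Set.range (fun i => ((a i, c i) : 𝔄 × R))),
    Subring.closureCommRingOfComm hcomm,
    (RingHom.fst _ _).comp (Subring.subtype _), (RingHom.snd _ _).comp (Subring.subtype _),
    ?_, ?_, ?_, ?_⟩
  · rintro ⟨x, hx⟩ ⟨x', hx'⟩ hxx
    have h1 : x.1 = x'.1 := hxx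
    apply Subtype.ext
    refine Prod.ext h1 (hφ ?_)
    have h2 := EigenAbs_closure_eigen π a φ y c h x hx
    have h3 := EigenAbs_closure_eigen π a φ y c h x' hx'
    rw [h1, h3] at h2
    by_contra hne
    apply hy
    funext k
    have h4 := congrFun h2 k
    simp only [Pi.smul_apply, smul_eq_mul] at h4
    have h5 : (φ x.2 - φ x'.2) * y k = 0 := by rw [sub_mul, h4, sub_self]
    exact (mul_eq_zero.mp h5).resolve_left (sub_ne_zero.mpr hne)
  · rintro ⟨x, hx⟩
    exact EigenAbs_closure_fst a c x hx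
  · intro i
    exact ⟨⟨(a i, c i), Subring.subset_closure ⟨i, rfl⟩⟩, rfl, rfl⟩
  · rintro ⟨x, hx⟩
    exact EigenAbs_closure_eigen π a φ y c h x hx

/-- **Eigenvectors over `ℂ` with eigenvalues in a subring `R` can be transported along any ring
homomorphism `R → O` to a domain.**  Proof: (E) over `ℂ` (with `𝔄 = M_n(ℤ)`, `π = id`,
index type `{ℓ // L ℓ}`), then (A) with `K = FractionRing O`, then clear denominators
(`IsLocalization.exist_integer_multiples_of_finset`). -/
theorem exists_eigenvector_over {n : ℕ} (L : ℕ → Prop) (T : ℕ → Matrix (Fin n) (Fin n) ℤ)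
    (hT : ∀ ℓ ℓ', T ℓ * T ℓ' = T ℓ' * T ℓ)
    (v : Fin n → ℂ) (hv : v ≠ 0) (R : Subring ℂ) (c : ℕ → R)
    (hvc : ∀ ℓ, L ℓ → (zc ℂ (T ℓ)).mulVec v = (c ℓ : ℂ) • v)
    {O : Type} [CommRing O] [IsDomain O] (φ : R →+* O) :
    ∃ y : Fin n → O, y ≠ 0 ∧ ∀ ℓ, L ℓ → (zc O (T ℓ)).mulVec y = φ (c ℓ) • y := by
  obtain ⟨C, _, inc, θ, hinc, -, hgen, -⟩ :=
    exists_eigenCharacter (𝔄 := Matrix (Fin n) (Fin n) ℤ) (ι := {ℓ // L ℓ})
      (RingHom.id _) (fun i => T i.1) (fun i j => hT i.1 j.1) (R := R) (O := ℂ) R.subtype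
      Subtype.val_injective v hv (fun i => c i.1) (fun i => hvc i.1 i.2)
  let K := FractionRing O
  obtain ⟨y, hy0, hy⟩ := exists_eigenvector_of_faithful inc hinc (K := K)
    ((algebraMap O K).comp (φ.comp θ))
  obtain ⟨b, hb⟩ := IsLocalization.exist_integer_multiples_of_finite (nonZeroDivisors O) y
  choose z hz using hb
  have hinj : Function.Injective (algebraMap O K) := IsFractionRing.injective O K
  have hb0 : algebraMap O K (b : O) ≠ 0 := by
    intro h0
    exact nonZeroDivisors.coe_ne_zero b (hinj (by rw [h0, map_zero]))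
  refine ⟨z, ?_, ?_⟩
  · intro hz0
    apply hy0
    funext i
    have h1 := hz i
    rw [hz0, Pi.zero_apply, map_zero, Algebra.smul_def] at h1
    rcases mul_eq_zero.mp h1.symm with h2 | h2
    · exact absurd h2 hb0
    · exact h2
  · intro ℓ hℓ
    obtain ⟨x, hx1, hx2⟩ := hgen ⟨ℓ, hℓ⟩
    have hx1' : inc x = T ℓ := hx1
    have hx2' : θ x = c ℓ := hx2
    have hyx := hy x
    rw [hx1'] at hyx
    funext i
    apply hinj
    have hyi := congrFun hyx i
    simp only [Matrix.mulVec, dotProduct, Pi.smul_apply, smul_eq_mul, Matrix.map_apply,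
      RingHom.comp_apply, hx2', map_sum, map_mul, hz, Algebra.smul_def, eq_intCast, map_intCast]
      at hyi ⊢
    calc ∑ j, ((T ℓ i j : ℤ) : K) * (algebraMap O K b * y j)
        = algebraMap O K b * ∑ j, ((T ℓ i j : ℤ) : K) * y j := by
          rw [Finset.mul_sum]
          exact Finset.sum_congr rfl (fun j _ => by ring)
      _ = _ := by rw [hyi]; ring

end Fermat.Agent.DR
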