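import Fermat.Prelude.Def_CuspForm_HeckeAlgebra
import Fermat.Agent.DR.S35.EigenAbs

set_option autoImplicit false

/-!
# DR/S35 : from an eigenvector in the period lattice `⊗ O` to a complex character of the
Hecke algebra of cusp forms
-/

namespace Fermat.Agent.DR

open CuspForm CongruenceSubgroup

theorem corrChar_per {M : ℕ} [NeZero M] (S : Set ℕ) {n : ℕ}
    (T' : ℕ → Matrix (Fin n) (Fin n) ℤ)
    (per' : CuspForm (Gamma0 M) 2 →ₗ[ℂ] (Fin n → ℂ))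
    (hper : ∀ (ℓ : ℕ) (hℓ : ℓ.Prime) (hℓN : ¬ ℓ ∣ M) (f : CuspForm (Gamma0 M) 2),
      per' (CuspForm.heckeTLin 2 hℓ hℓN f) = (zc ℂ (T' ℓ)).mulVec (per' f))
    (a : {ℓ : ℕ // ℓ.Prime ∧ ¬ ℓ ∣ M ∧ ℓ ∉ S} → Matrix (Fin n) (Fin n) ℤ × heckeAlgebra M 2 S)
    (ha : ∀ ℓ, a ℓ = (T' ℓ.1, heckeAlgebra.T ℓ.2.1 ℓ.2.2.1 ℓ.2.2.2))
    (x : Matrix (Fin n) (Fin n) ℤ × heckeAlgebra M 2 S)
    (hx : x ∈ Subring.closure (Set.range a)) (f : CuspForm (Gamma0 M) 2) :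
    per' (x.2.1 f) = (zc ℂ x.1).mulVec (per' f) := by
  induction hx using Subring.closure_induction generalizing f with
  | mem x hx =>
    obtain ⟨ℓ, rfl⟩ := hx
    rw [ha]
    exact hper ℓ.1 ℓ.2.1 ℓ.2.2.1 f
  | zero => simp
  | one => simp
  | add x y _ _ hx hy =>
    have e1 : ((x + y).2.1 : Module.End ℂ _) f = x.2.1 f + y.2.1 f := rfl
    have e2 : (x + y).1.map (Int.castRingHom ℂ)
        = x.1.map (Int.castRingHom ℂ) + y.1.map (Int.castRingHom ℂ) := by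
      rw [Prod.fst_add, Matrix.map_add _ (fun a b => map_add _ a b)]
    rw [e1, zc, e2, map_add, hx, hy, Matrix.add_mulVec]
  | neg x _ hx =>
    have e1 : ((-x).2.1 : Module.End ℂ _) f = - x.2.1 f := rfl
    have e2 : (-x).1.map (Int.castRingHom ℂ) = - x.1.map (Int.castRingHom ℂ) := by
      rw [Prod.fst_neg, Matrix.map_neg _ (fun a => map_neg _ a)]
    rw [e1, zc, e2, map_neg, hx, Matrix.neg_mulVec]
  | mul x y _ _ hx hy =>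
    have e1 : ((x * y).2.1 : Module.End ℂ _) f = x.2.1 (y.2.1 f) := rfl
    have e2 : (x * y).1.map (Int.castRingHom ℂ)
        = x.1.map (Int.castRingHom ℂ) * y.1.map (Int.castRingHom ℂ) := by
      rw [Prod.fst_mul, Matrix.map_mul]
    rw [e1, zc, e2, hx, hy, Matrix.mulVec_mulVec]

/-- Proof. Apply (E) (`exists_eigenCharacter`) with `𝔄 = M_n(ℤ) × heckeAlgebra M 2 S`,
`π = RingHom.fst`, index type `{ℓ // ℓ.Prime ∧ ¬ ℓ ∣ M ∧ ℓ ∉ S}`, `a ℓ = (T' ℓ, T_ℓ)`.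
`Ψ = snd ∘ inc`, `θ_ℂ = R.subtype ∘ θ`. By `Subring.closure_induction` every `z` in the closure
satisfies `per' (z.2.1 f) = zc ℂ z.1 *ᵥ per' f` (copy `GAL.heckeCorr_per`); so `z.2 = 0` implies
`z.1 = 0` by `hfaith`, which gives the injectivity of `Ψ`. -/
theorem exists_corr_character {M : ℕ} [NeZero M] (S : Set ℕ) {n : ℕ}
    (T' : ℕ → Matrix (Fin n) (Fin n) ℤ) (hT' : ∀ ℓ ℓ' : ℕ, T' ℓ * T' ℓ' = T' ℓ' * T' ℓ)
    (per' : CuspForm (Gamma0 M) 2 →ₗ[ℂ] (Fin n → ℂ))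
    (hper : ∀ (ℓ : ℕ) (hℓ : ℓ.Prime) (hℓN : ¬ ℓ ∣ M) (f : CuspForm (Gamma0 M) 2),
      per' (CuspForm.heckeTLin 2 hℓ hℓN f) = (zc ℂ (T' ℓ)).mulVec (per' f))
    (hfaith : ∀ t : Matrix (Fin n) (Fin n) ℤ,
      (∀ f : CuspForm (Gamma0 M) 2, (zc ℂ t).mulVec (per' f) = 0) → t = 0)
    {O : Type} [CommRing O] [IsDomain O] (R : Subring ℂ) (φ : R →+* O)
    (hφ : Function.Injective φ) (c : ℕ → R) (y : Fin n → O) (hy0 : y ≠ 0)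
    (hy : ∀ ℓ : ℕ, ℓ.Prime → ¬ ℓ ∣ M → ℓ ∉ S → (zc O (T' ℓ)).mulVec y = φ (c ℓ) • y) :
    ∃ (C : Type) (_ : CommRing C) (Ψ : C →+* heckeAlgebra M 2 S) (θ : C →+* ℂ),
      Function.Injective Ψ ∧
      ∀ (ℓ : ℕ) (hℓ : ℓ.Prime) (hℓM : ¬ ℓ ∣ M) (hℓS : ℓ ∉ S),
        ∃ x : C, Ψ x = heckeAlgebra.T hℓ hℓM hℓS ∧ θ x = (c ℓ : ℂ) := by
  let a : {ℓ : ℕ // ℓ.Prime ∧ ¬ ℓ ∣ M ∧ ℓ ∉ S} → Matrix (Fin n) (Fin n) ℤ × heckeAlgebra M 2 S :=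
    fun ℓ => (T' ℓ.1, heckeAlgebra.T ℓ.2.1 ℓ.2.2.1 ℓ.2.2.2)
  obtain ⟨C, instC, inc, θ, hinc, hcl, hgen, -⟩ :=
    exists_eigenCharacter (RingHom.fst (Matrix (Fin n) (Fin n) ℤ) (heckeAlgebra M 2 S)) a
      (fun i j => Prod.ext (hT' _ _) (mul_comm _ _)) φ hφ y hy0 (fun ℓ => c ℓ.1)
      (fun ℓ => hy ℓ.1 ℓ.2.1 ℓ.2.2.1 ℓ.2.2.2)
  refine ⟨C, instC, (RingHom.snd _ _).comp inc, R.subtype.comp θ, ?_, ?_⟩
  · rw [injective_iff_map_eq_zero]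
    intro x hx
    have hx2 : (inc x).2 = 0 := hx
    apply hinc
    rw [map_zero]
    refine Prod.ext ?_ hx2
    apply hfaith
    intro f
    rw [← corrChar_per S T' per' hper a (fun _ => rfl) (inc x) (hcl x) f, hx2]
    simp
  · intro ℓ hℓ hℓM hℓS
    obtain ⟨x, hx1, hx2⟩ := hgen ⟨ℓ, hℓ, hℓM, hℓS⟩
    refine ⟨x, ?_, ?_⟩
    · change (inc x).2 = _
      rw [hx1]
    · change ((θ x : R) : ℂ) = _
      rw [hx2]

end Fermat.Agent.DR
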