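import Fermat.Agent.S49
import Fermat.Agent.S49.Abstract
import Fermat.Agent.ES.Main
import Fermat.Prelude.Def_CuspForm_Newforms

set_option autoImplicit false

/-!
# DR/S35 : an eigenvector for the good Hecke operators gives a normalised eigenform
-/

namespace Fermat.Agent.DR

open CuspForm CongruenceSubgroup ModularFormClass

/-- Proof. `Wsp := {f | ∀ ℓ prime, ℓ ∤ N, T_ℓ f = a_ℓ(g) f}` is a nonzero subspace of the finite
dimensional space (`Fermat.Agent.ES.finite_cuspForm`) `S₂(Γ₀(M))`, stable under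
`heckeGenerators M 2 ∅` (`commute_of_mem_heckeGenerators`). `S49.exists_common_eigenvector` gives
`v ∈ Wsp`, `v ≠ 0`, a common eigenvector of all generators, hence (`Algebra.adjoin_induction`) of
the whole `heckeAlgebra M 2 ∅`, with eigenvalue a ring homomorphism `χ`. Conclude with
`S49.exists_normalized_of_eigenvector`. -/
theorem goodEigensystemOccursAt_of_form {N M : ℕ} [NeZero M] (hMN : M ∣ N)
    {g : CuspForm (Gamma0 N) 2} (f : CuspForm (Gamma0 M) 2) (hf : f ≠ 0)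
    (h : ∀ (ℓ : ℕ) (hℓ : ℓ.Prime) (_ : ¬ ℓ ∣ N) (hℓM : ¬ ℓ ∣ M),
      CuspForm.heckeTLin 2 hℓ hℓM f = qCoeff g ℓ • f) :
    GoodEigensystemOccursAt g M := by
  classical
  have : FiniteDimensional ℂ (CuspForm (Gamma0 M) 2) := Fermat.Agent.ES.finite_cuspForm M
  let T := heckeAlgebra M 2 ∅
  let ρ : T → Module.End ℂ (CuspForm (Gamma0 M) 2) := fun t => t.1
  let W : Submodule ℂ (CuspForm (Gamma0 M) 2) :=
    { carrier := {u | ∀ (ℓ : ℕ) (hℓ : ℓ.Prime) (_ : ¬ ℓ ∣ N) (hℓM : ¬ ℓ ∣ M),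
        CuspForm.heckeTLin 2 hℓ hℓM u = qCoeff g ℓ • u}
      zero_mem' := by
        intro ℓ hℓ _ hℓM
        rw [map_zero, smul_zero]
      add_mem' := by
        intro a b ha hb ℓ hℓ hN hℓM
        rw [map_add, ha ℓ hℓ hN hℓM, hb ℓ hℓ hN hℓM, smul_add]
      smul_mem' := by
        intro c a ha ℓ hℓ hN hℓM
        rw [map_smul, ha ℓ hℓ hN hℓM, smul_comm] }
  have hmemW : ∀ u, u ∈ W ↔ ∀ (ℓ : ℕ) (hℓ : ℓ.Prime) (_ : ¬ ℓ ∣ N) (hℓM : ¬ ℓ ∣ M),
      CuspForm.heckeTLin 2 hℓ hℓM u = qCoeff g ℓ • u := fun u => Iff.rfl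
  have hWne : W ≠ ⊥ := by
    intro hbot
    apply hf
    rw [← Submodule.mem_bot ℂ, ← hbot]
    exact h
  have hcomm : ∀ s t : T, ∀ u, ρ s (ρ t u) = ρ t (ρ s u) := by
    intro s t u
    have h1 : ρ s (ρ t u) = (s * t).1 u := rfl
    have h2 : ρ t (ρ s u) = (t * s).1 u := rfl
    rw [h1, h2, mul_comm]
  obtain ⟨v, hvW, hv0, hv⟩ := Fermat.Agent.S49.exists_common_eigenvector (Set.range ρ)
    (by
      rintro _ ⟨s, rfl⟩ _ ⟨t, rfl⟩
      exact LinearMap.ext (hcomm s t)) _ W rfl hWne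
    (by
      rintro _ ⟨s, rfl⟩ u hu
      rw [hmemW] at hu ⊢
      intro ℓ hℓ hN hℓM
      have h1 := hcomm (heckeAlgebra.T hℓ hℓM (Set.notMem_empty ℓ)) s u
      have h2 : ρ (heckeAlgebra.T hℓ hℓM (Set.notMem_empty ℓ)) = CuspForm.heckeTLin 2 hℓ hℓM := rfl
      rw [h2] at h1
      rw [h1, hu ℓ hℓ hN hℓM, map_smul])
  choose μ₀ hμ₀ using fun t => hv (ρ t) ⟨t, rfl⟩
  have hinj : ∀ c d : ℂ, c • v = d • v → c = d := fun c d h => smul_left_injective ℂ hv0 h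
  let μ : T →+* ℂ :=
    { toFun := μ₀
      map_one' := hinj _ _ (by rw [← hμ₀, one_smul]; rfl)
      map_mul' := fun s t => hinj _ _ (by
        rw [← hμ₀, mul_smul, ← hμ₀ t, ← map_smul, ← hμ₀ s]
        exact hcomm s t v)
      map_zero' := hinj _ _ (by rw [← hμ₀, zero_smul]; rfl)
      map_add' := fun s t => hinj _ _ (by
        rw [← hμ₀, add_smul, ← hμ₀, ← hμ₀]; rfl) }
  have hμ : ∀ t : T, t.1 v = μ t • v := hμ₀
  obtain ⟨g', hg', hq⟩ := Fermat.Agent.S49.exists_normalized_of_eigenvector v hv0 μ hμ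
  refine ⟨g', hg', fun ℓ hℓ hℓN => ?_⟩
  have hℓM : ¬ ℓ ∣ M := fun hd => hℓN (hd.trans hMN)
  rw [hq ℓ hℓ hℓM]
  apply hinj
  rw [← hμ]
  exact (hmemW v).mp hvW ℓ hℓ hℓN hℓM

end Fermat.Agent.DR
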