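import Fermat.Agent.DR.S35.FormChar
import Fermat.Agent.DR.S35.CorrChar
import Fermat.Agent.DR.S35.Occurs

set_option autoImplicit false

/-!
# DR/S35 : the eigensystem of a newform of level `M q` does not occur in the lattice of level `M`
-/

namespace Fermat.Agent.DR

open CuspForm CongruenceSubgroup ModularFormClass

theorem eq_zero_of_isNewform {M q : ℕ} [NeZero M] [NeZero q] (hq : q.Prime)
    {g : CuspForm (Gamma0 (M * q)) 2} (hg : g.IsNewform) {n : ℕ}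
    (T' : ℕ → Matrix (Fin n) (Fin n) ℤ) (hT' : ∀ ℓ ℓ' : ℕ, T' ℓ * T' ℓ' = T' ℓ' * T' ℓ)
    (per' : CuspForm (Gamma0 M) 2 →ₗ[ℂ] (Fin n → ℂ))
    (hper : ∀ (ℓ : ℕ) (hℓ : ℓ.Prime) (hℓN : ¬ ℓ ∣ M) (f : CuspForm (Gamma0 M) 2),
      per' (CuspForm.heckeTLin 2 hℓ hℓN f) = (zc ℂ (T' ℓ)).mulVec (per' f))
    (hfaith : ∀ t : Matrix (Fin n) (Fin n) ℤ,
      (∀ f : CuspForm (Gamma0 M) 2, (zc ℂ t).mulVec (per' f) = 0) → t = 0)
    {O : Type} [CommRing O] [IsDomain O] (R : Subring ℂ) (φ : R →+* O)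
    (hφ : Function.Injective φ) (c : ℕ → R)
    (hc : ∀ ℓ : ℕ, ℓ.Prime → ¬ ℓ ∣ M * q → (c ℓ : ℂ) = qCoeff g ℓ)
    (y : Fin n → O)
    (hy : ∀ ℓ : ℕ, ℓ.Prime → ¬ ℓ ∣ M * q → (zc O (T' ℓ)).mulVec y = φ (c ℓ) • y) : y = 0 := by
  by_contra hy0
  obtain ⟨C, _, Ψ, θ, hΨ, hT⟩ := exists_corr_character {ℓ : ℕ | ℓ ∣ M * q} T' hT' per' hper hfaith
    R φ hφ c y hy0 (fun ℓ hℓ _ hℓS => hy ℓ hℓ hℓS)
  obtain ⟨f, hf0, hf⟩ := exists_form_of_character _ Ψ hΨ θ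
  have hocc : GoodEigensystemOccursAt g M := by
    refine goodEigensystemOccursAt_of_form (Dvd.intro q rfl) f hf0 ?_
    intro ℓ hℓ hℓN hℓM
    obtain ⟨x, hx1, hx2⟩ := hT ℓ hℓ hℓM hℓN
    have := hf x
    rw [hx1, hx2, hc ℓ hℓ hℓN] at this
    exact this
  refine hg.2 M (Dvd.intro q rfl) ?_ hocc
  intro h
  have h1 : M * 1 = M * q := by rw [mul_one]; exact h
  have h2 := Nat.eq_of_mul_eq_mul_left (Nat.pos_of_ne_zero (NeZero.ne M)) h1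
  exact hq.one_lt.ne h2

end Fermat.Agent.DR
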