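import Fermat.Agent.DR.S35.EigenSub
import Fermat.Agent.DR.S35.BaseChange
import Fermat.Agent.DR.S35.Newness
import Fermat.Agent.GAL.ModP.Eigen

set_option autoImplicit false

/-!
# DR/S35 : the lattice computing the trace of Frobenius at `q ∥ N`
-/

namespace Fermat.Agent.DR

open CuspForm CongruenceSubgroup ModularFormClass Fermat.Agent.GAL

theorem zc_map {m n : Type*} {R O : Type*} [Ring R] [Ring O] (ι : R →+* O) (A : Matrix m n ℤ) :
    (zc R A).map ι = zc O A := by
  ext i j
  simp [zc]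

theorem exists_lattice_at {M q p : ℕ} [NeZero M] [NeZero q] [Fact p.Prime] (hq : q.Prime)
    (D : NewDatum M q p) {g : CuspForm (Gamma0 (M * q)) 2} (hg : g.IsNewform)
    {O : Type} [CommRing O] [IsDomain O] [IsDiscreteValuationRing O] [CharZero O]
    (hpO : (p : O) ∈ IsLocalRing.maximalIdeal O) (ι : ℤ_[p] →+* O)
    (R : Subring ℂ) (φ : R →+* O) (hφ : Function.Injective φ) (c : ℕ → R)
    (hc : ∀ ℓ : ℕ, ℓ.Prime → ¬ ℓ ∣ M * q → (c ℓ : ℂ) = qCoeff g ℓ) :
    ∃ (s : O) (Λ : Type) (_ : AddCommGroup Λ) (_ : Module O Λ) (_ : Module.Free O Λ)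
      (_ : Module.Finite O Λ) (_ : Nontrivial Λ) (r : GQ →* Module.End O Λ),
      (s = 1 ∨ s = -1) ∧ GaloisActionIsAdicContinuous O r ∧
      (∀ ℓ : ℕ, ℓ.Prime → ℓ ∉ D.bad → ¬ ℓ ∣ M * q →
        ∀ A : ValuationSubring (AlgebraicClosure ℚ), A.LiesOverPrime ℓ →
          ∀ σ : GQ, A.IsFrobeniusAt σ ℓ →
            r σ * r σ - φ (c ℓ) • r σ + (ℓ : O) • (1 : Module.End O Λ) = 0) ∧
      (∀ A : ValuationSubring (AlgebraicClosure ℚ), A.LiesOverPrime q →
        ∀ σ : GQ, A.IsFrobeniusAt σ q →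
          r σ * r σ - (-(((q : O) + 1) * s)) • r σ + (q : O) • (1 : Module.End O Λ) = 0) := by
  classical
  set L : ℕ → Prop := fun ℓ => ℓ.Prime ∧ ¬ ℓ ∣ M * q with hL
  -- the eigenvector
  have hg0 : g ≠ 0 := hg.ne_zero
  have hv : D.per g ≠ 0 := fun h => hg0 (D.per_injective (by rw [h, map_zero]))
  obtain ⟨y, hy0, hy⟩ := exists_eigenvector_over L D.T D.T_comm (D.per g) hv R c
    (fun ℓ hℓ => by
      rw [← D.per_T ℓ hℓ.1 hℓ.2 g, ModP.heckeTLin_eq_smul hg.1 hℓ.1 hℓ.2, map_smul, hc ℓ hℓ.1 hℓ.2]) φ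
  -- the action over `O`
  let A : GQ →* Matrix (Fin D.r) (Fin D.r) O := (ι.mapMatrix (m := Fin D.r)).toMonoidHom.comp D.ρ
  have hAdef : ∀ σ, A σ = (D.ρ σ).map ι := fun σ => rfl
  have hA : ∀ k : ℕ, ∃ F : IntermediateField ℚ (AlgebraicClosure ℚ), FiniteDimensional ℚ F ∧
      ∀ σ : GQ, (∀ x ∈ F, σ x = x) → ∀ i j, (A σ - 1) i j ∈ IsLocalRing.maximalIdeal O ^ k := by
    intro k
    obtain ⟨F, hF, h⟩ := D.ρ_cont k
    refine ⟨F, hF, fun σ hσ i j => ?_⟩
    obtain ⟨z, hz⟩ := h σ hσ i j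
    have h1 : (A σ - 1) i j = ι ((D.ρ σ - 1) i j) := by
      rw [Matrix.sub_apply, Matrix.sub_apply, map_sub, hAdef, Matrix.map_apply]
      congr 1
      by_cases hij : i = j
      · subst hij; simp
      · simp [Matrix.one_apply_ne hij]
    rw [h1, hz, map_mul, map_pow, map_natCast]
    exact Ideal.mul_mem_right _ _ (Ideal.pow_mem_pow hpO k)
  have hmapmul : ∀ (X Y : Matrix (Fin D.r) (Fin D.r) ℤ_[p]), (X * Y).map ι = X.map ι * Y.map ι :=
    fun X Y => Matrix.map_mul
  obtain ⟨s, Λ, i1, i2, i3, i4, i5, r, j, hs, hcont, hj, hjr, hjT, hjW⟩ :=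
    exists_signed_lattice A hA L (fun ℓ => zc O (D.T ℓ)) (fun ℓ => φ (c ℓ))
      (fun σ ℓ hℓ => by
        have := congrArg (fun X => X.map ι) (D.ρ_T σ ℓ hℓ.1 hℓ.2)
        simp only [hmapmul, zc_map] at this
        exact this)
      (D.W.map ι)
      (by
        have := congrArg (fun X => X.map ι) D.W_sq
        simp only [hmapmul] at this
        rw [this, Matrix.map_one _ (map_zero _) (map_one _)])
      (fun ℓ hℓ => by
        have := congrArg (fun X => X.map ι) (D.W_T ℓ hℓ.1 hℓ.2)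
        simp only [hmapmul, zc_map] at this
        exact this)
      (fun σ => by
        have := congrArg (fun X => X.map ι) (D.W_ρ σ)
        simp only [hmapmul] at this
        exact this)
      y hy0 hy
  refine ⟨s, Λ, i1, i2, i3, i4, i5, r, hs, hcont, ?_, ?_⟩
  · intro ℓ hℓ hbad hℓN B hB σ hσ
    have hrel' : A σ * A σ - zc O (D.T ℓ) * A σ + (ℓ : Matrix (Fin D.r) (Fin D.r) O) = 0 := by
      have h := congrArg (ι.mapMatrix (m := Fin D.r)) (D.ρ_ES ℓ hℓ hbad B hB σ hσ)
      simp only [map_add, map_sub, map_mul, map_natCast, map_zero] at h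
      have e1 : ι.mapMatrix (zc ℤ_[p] (D.T ℓ)) = zc O (D.T ℓ) := zc_map ι _
      rw [e1] at h
      exact h
    apply LinearMap.ext
    intro v
    apply hj
    have h1 := congrArg (fun X => X.mulVec (j v)) hrel'
    simp only [Matrix.add_mulVec, Matrix.sub_mulVec, Matrix.zero_mulVec, ← Matrix.mulVec_mulVec,
      Matrix.natCast_mulVec] at h1
    rw [LinearMap.add_apply, LinearMap.sub_apply, Module.End.mul_apply, LinearMap.smul_apply,
      LinearMap.smul_apply, Module.End.one_apply, LinearMap.zero_apply, map_add, map_sub, map_smul,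
      map_smul, map_zero, hjr, hjr, ← h1, ← hjr σ v, hjT ℓ ⟨hℓ, hℓN⟩ (r σ v)]
  · intro B hB σ hσ
    -- vanishing of `P` on the lattice
    have hP : ∀ v : Λ, (D.P.map ι).mulVec (j v) = 0 := by
      intro v
      refine eq_zero_of_isNewform hq hg D.T' D.T'_comm D.per' D.per'_T D.per'_faithful R φ hφ c hc
        _ ?_
      intro ℓ hℓ hℓN
      have h1 := congrArg (fun X => X.map ι) (D.P_T ℓ hℓ hℓN)
      simp only [Matrix.map_mul, zc_map] at h1
      rw [Matrix.mulVec_mulVec, ← h1, ← Matrix.mulVec_mulVec, hjT ℓ ⟨hℓ, hℓN⟩ v,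
        Matrix.mulVec_smul]
    set Bm : Matrix (Fin D.r) (Fin D.r) ℤ_[p] := (D.ρ σ + (q : ℤ_[p]) • D.W) * (D.ρ σ + D.W)
      with hBm
    have hker : ∀ v : Λ, (Bm.map ι).mulVec (j v) = 0 := by
      intro v
      refine mulVec_eq_zero_of_ker_le (Matrix.fromRows D.P (D.P * D.W)) Bm ?_ ι
        (padicInt_ringHom_injective ι) (j v) ?_
      · intro x hx
        have h1 : D.P.mulVec x = 0 := by
          funext i
          exact congrFun hx (Sum.inl i)
        have h2 : D.P.mulVec (D.W.mulVec x) = 0 := by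
          rw [Matrix.mulVec_mulVec]
          funext i
          exact congrFun hx (Sum.inr i)
        exact D.newFrob B hB σ hσ x h1 h2
      · funext i
        rcases i with i | i
        · exact congrFun (hP v) i
        · have h3 : ((D.P * D.W).map ι).mulVec (j v) = 0 := by
            rw [Matrix.map_mul, ← Matrix.mulVec_mulVec, hjW, Matrix.mulVec_smul, hP, smul_zero]
          exact congrFun h3 i
    have hBmap : Bm.map ι = (A σ + (q : O) • D.W.map ι) * (A σ + D.W.map ι) := by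
      rw [hBm, hmapmul]
      congr 1
      · ext a b
        simp [hAdef]
      · ext a b
        simp [hAdef]
    have hss : s * s = 1 := by
      rcases hs with rfl | rfl <;> simp
    apply LinearMap.ext
    intro v
    apply hj
    have e1 : (A σ + D.W.map ι).mulVec (j v) = j (r σ v + s • v) := by
      rw [Matrix.add_mulVec, hjW, ← hjr, map_add, map_smul]
    have e2 : ∀ w : Λ, (A σ + (q : O) • D.W.map ι).mulVec (j w) = j (r σ w + ((q : O) * s) • w) := by
      intro w
      rw [Matrix.add_mulVec, Matrix.smul_mulVec, hjW, ← hjr, map_add, map_smul, smul_smul]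
    have h1 := hker v
    rw [hBmap, ← Matrix.mulVec_mulVec, e1, e2] at h1
    rw [LinearMap.zero_apply, map_zero, ← h1]
    congr 1
    rw [LinearMap.add_apply, LinearMap.sub_apply, Module.End.mul_apply, LinearMap.smul_apply,
      LinearMap.smul_apply, Module.End.one_apply, map_add, map_smul, smul_add, smul_smul,
      mul_assoc, hss, mul_one]
    module

end Fermat.Agent.DR
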