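import Fermat.Statements.S35
import Fermat.Agent.DR.S35.Core30
import Fermat.Agent.DR.S35.ExtIota
import Fermat.Agent.DR.S35.Lattice

set_option autoImplicit false

/-!
# DR/S35 : `GeomInput`, `FrobeniusDensity` and `NewInput` imply S35
-/

namespace Fermat.Agent.DR

open Polynomial CuspForm CongruenceSubgroup ModularFormClass Fermat.Agent.GAL

theorem s35_of (hG : GeomInput) (hFD : FrobeniusDensity) (hNew : NewInput)
    {M : ℕ} [NeZero M] {g : CuspForm (CongruenceSubgroup.Gamma0 M) 2} (hg : g.IsNewform)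
    (lam : ℕ) [Fact lam.Prime]
    (S : Finset ℕ)
    (O' : Type) [CommRing O'] [IsDomain O'] [IsDiscreteValuationRing O']
    [IsAdicComplete (IsLocalRing.maximalIdeal O') O'] [Finite (IsLocalRing.ResidueField O')]
    [CharZero O'] (hlamO' : (lam : O') ∈ IsLocalRing.maximalIdeal O')
    (chig : CuspForm.heckeAlgebra M 2 (↑S : Set ℕ) →+* ℂ)
    (hchig : ∀ (ℓ : ℕ) (hℓ : ℓ.Prime) (hℓM : ¬ ℓ ∣ M) (hℓS : ℓ ∉ (↑S : Set ℕ)),
      chig (CuspForm.heckeAlgebra.T hℓ hℓM hℓS) = ModularFormClass.qCoeff g ℓ)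
    (iota : chig.range →+* O')
    (hlamS : lam ∈ S) (hMS : ∀ q : ℕ, q.Prime → q ∣ M → q ∈ S) :
    ∃ (O'' : Type) (_ : CommRing O'') (_ : IsDomain O'') (_ : IsDiscreteValuationRing O'')
      (_ : IsAdicComplete (IsLocalRing.maximalIdeal O'') O'') (_ : Finite (IsLocalRing.ResidueField O''))
      (_ : CharZero O'') (_ : Algebra O' O'') (_ : Module.Finite O' O'') (_ : IsLocalHom (algebraMap O' O'')),
      Function.Injective (algebraMap O' O'') ∧
      ∃ ρ : GaloisRepAdic O'',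
        (∀ (ℓ : ℕ) (hℓ : ℓ.Prime) (hℓM : ¬ ℓ ∣ M) (hℓS : ℓ ∉ (↑S : Set ℕ)),
          ∀ A : ValuationSubring (AlgebraicClosure ℚ), A.LiesOverPrime ℓ →
            ∀ σ : AlgebraicClosure ℚ ≃ₐ[ℚ] AlgebraicClosure ℚ, A.IsFrobeniusAt σ ℓ →
              LinearMap.charpoly (ρ.ρ σ) =
                X ^ 2 - C (algebraMap O' O'' ((iota.comp chig.rangeRestrict) (CuspForm.heckeAlgebra.T hℓ hℓM hℓS))) * X
                  + C ((ℓ : O''))) ∧
        (∀ q : ℕ, q.Prime → q ≠ lam → q ∣ M → ¬ q ^ 2 ∣ M →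
          ∀ A : ValuationSubring (AlgebraicClosure ℚ), A.LiesOverPrime q →
            ∀ σ : AlgebraicClosure ℚ ≃ₐ[ℚ] AlgebraicClosure ℚ, A.IsFrobeniusAt σ q →
              LinearMap.charpoly (ρ.ρ σ) = X ^ 2 - C ((q : O'') + 1) * X + C ((q : O'')) ∨
              LinearMap.charpoly (ρ.ρ σ) = X ^ 2 + C ((q : O'') + 1) * X + C ((q : O''))) := by
  classical
  obtain ⟨O'', i1, i2, i3, i4, i5, i6, i7, i8, i9, hinj, R, φ, hφ, hR, hcompat⟩ :=
    exists_ext_iota hg.1 S O' chig hchig iota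
  refine ⟨O'', i1, i2, i3, i4, i5, i6, i7, i8, i9, hinj, ?_⟩
  have hlamO'' : (lam : O'') ∈ IsLocalRing.maximalIdeal O'' := by
    have h1 : algebraMap O' O'' (lam : O') ∈ IsLocalRing.maximalIdeal O'' := by
      rw [IsLocalRing.mem_maximalIdeal, mem_nonunits_iff] at hlamO' ⊢
      exact fun h => hlamO' (isUnit_of_map_unit (algebraMap O' O'') _ h)
    rwa [map_natCast] at h1
  obtain ⟨ι⟩ := exists_padicInt_ringHom lam O'' hlamO''
  set χ : CuspForm.heckeAlgebra M 2 (↑S : Set ℕ) →+* O'' :=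
    (algebraMap O' O'').comp (iota.comp chig.rangeRestrict) with hχ
  obtain ⟨ρ, t, hchar, htF, hcmp⟩ := exists_rep_pseudo hG hFD lam M S hlamS hMS O'' hlamO'' ι χ
  refine ⟨ρ, ?_, ?_⟩
  · intro ℓ hℓ hℓM hℓS A hA σ hσ
    have hℓlam : ℓ ≠ lam := fun h => hℓS (h ▸ hlamS)
    rw [hchar σ, htF ℓ hℓ hℓM hℓS A hA σ hσ, cycloO_frobenius ι hℓ hℓlam A hA σ hσ]
    rfl
  · intro q hq hqlam hqM hq2 A hA σ hσ
    obtain ⟨M', rfl⟩ : ∃ M', M = M' * q := ⟨M / q, (Nat.div_mul_cancel hqM).symm⟩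
    have hqM' : ¬ q ∣ M' := fun h => hq2 (by rw [pow_two]; exact Nat.mul_dvd_mul h dvd_rfl)
    have : NeZero M' := ⟨fun h => NeZero.ne (M' * q) (by rw [h, zero_mul])⟩
    have : NeZero q := ⟨hq.ne_zero⟩
    obtain ⟨D⟩ := hNew M' q lam hq hqM' hqlam
    let c : ℕ → R := fun ℓ =>
      if h : ℓ.Prime ∧ ¬ ℓ ∣ M' * q then ⟨qCoeff g ℓ, hR ℓ h.1 h.2⟩ else 0
    have hc : ∀ ℓ : ℕ, ℓ.Prime → ¬ ℓ ∣ M' * q → (c ℓ : ℂ) = qCoeff g ℓ := by
      intro ℓ h1 h2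
      simp only [c, dif_pos (And.intro h1 h2)]
    obtain ⟨s, Λ, j1, j2, j3, j4, j5, r, hs, hcont, hES, hq'⟩ :=
      exists_lattice_at hq D hg hlamO'' ι R φ hφ c hc
    have hscal := scalar_of_quadratic r σ _ _ (hq' A hA σ hσ)
    have hεq := cycloO_frobenius ι hq hqlam A hA σ hσ
    have hscal' : r σ + ((cycloO ι σ : O''ˣ) : O'') • r σ⁻¹
        = (-(((q : O'') + 1) * s)) • (1 : Module.End O'' Λ) := by
      rw [hεq]; exact hscal
    have ht : t σ = -(((q : O'') + 1) * s) := by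
      refine hcmp Λ r hcont (D.bad ∪ S) ?_ σ _ hscal'
      intro ℓ hℓ hℓB B hB τ hτ
      rw [Finset.mem_union, not_or] at hℓB
      have hℓS : ℓ ∉ (↑S : Set ℕ) := by simpa using hℓB.2
      have hℓN : ¬ ℓ ∣ M' * q := fun h => hℓS (by simpa using hMS ℓ hℓ h)
      have h1 := hES ℓ hℓ hℓB.1 hℓN B hB τ hτ
      have h2 : φ (c ℓ) = eigA (↑S : Set ℕ) χ ℓ := by
        rw [eigA_eq _ χ hℓ hℓN hℓS]
        simp only [c, dif_pos (And.intro hℓ hℓN)]
        exact hcompat ℓ hℓ hℓN hℓS _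
      rw [h2] at h1
      exact h1
    rw [hchar σ, ht, cycloO_frobenius ι hq hqlam A hA σ hσ]
    rcases hs with rfl | rfl
    · right
      rw [mul_one, C_neg, neg_mul, sub_neg_eq_add]
    · left
      rw [mul_neg, mul_one, neg_neg]

end Fermat.Agent.DR
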