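import Fermat.Agent.DR.Interface
import Fermat.Agent.DR.S35.Datum
import Fermat.Agent.GAL.Assembly

set_option autoImplicit false

/-!
# DR/S35 : from the Kummer model to matrices

`TorsDatum (M q)`, `TorsDatum M`, `KVUnramified`, `KVFrobRel` (project GAL) and `KVDegen M q`,
`KVNewFrob M q p` (DR/Interface) give a `NewDatum M q p`.
-/

namespace Fermat.Agent.DR

open Fermat.Agent.GAL Fermat.Agent.S24 Fermat.Agent.GAL.Tors

/-- **Two tower Tate limit.** A compatible system of additive maps `f k : V k → V' k` between two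
towers identified with `(ℤ/p^k)^r`, `(ℤ/p^k)^r'` is given by a matrix over `ℤ_p`.
(Copy-adapt `GAL/TateLimit.lean`: `actMat`, `actMat_compat`, `rhoMat`.) -/
theorem exists_limMat {p : ℕ} [Fact p.Prime] {r r' : ℕ} {V V' : ℕ → Type*}
    [∀ k, AddCommGroup (V k)] [∀ k, AddCommGroup (V' k)]
    (e : ∀ k, (Fin r → ZMod (p ^ k)) ≃+ V k) (e' : ∀ k, (Fin r' → ZMod (p ^ k)) ≃+ V' k)
    (red : ∀ k₁ k₂ : ℕ, k₁ ≤ k₂ → V k₂ →+ V k₁) (red' : ∀ k₁ k₂ : ℕ, k₁ ≤ k₂ → V' k₂ →+ V' k₁)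
    (red_e : ∀ (k₁ k₂ : ℕ) (h : k₁ ≤ k₂) (x : Fin r → ZMod (p ^ k₂)),
      red k₁ k₂ h (e k₂ x) = e k₁ (fun i => ZMod.castHom (pow_dvd_pow p h) (ZMod (p ^ k₁)) (x i)))
    (red_e' : ∀ (k₁ k₂ : ℕ) (h : k₁ ≤ k₂) (x : Fin r' → ZMod (p ^ k₂)),
      red' k₁ k₂ h (e' k₂ x) =
        e' k₁ (fun i => ZMod.castHom (pow_dvd_pow p h) (ZMod (p ^ k₁)) (x i)))
    (f : ∀ k, V k →+ V' k)
    (hf : ∀ (k₁ k₂ : ℕ) (h : k₁ ≤ k₂) (x : V k₂), red' k₁ k₂ h (f k₂ x) = f k₁ (red k₁ k₂ h x)) :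
    ∃ P : Matrix (Fin r') (Fin r) ℤ_[p], ∀ (k : ℕ) (x : Fin r → ZMod (p ^ k)),
      e' k ((P.map (PadicInt.toZModPow k)).mulVec x) = f k (e k x) := by
  classical
  -- the transported maps and their matrices
  let g : ∀ k, (Fin r → ZMod (p ^ k)) →+ (Fin r' → ZMod (p ^ k)) := fun k =>
    ((e' k).symm.toAddMonoidHom.comp (f k)).comp (e k).toAddMonoidHom
  let Am : ∀ k, Matrix (Fin r') (Fin r) (ZMod (p ^ k)) := fun k =>
    LinearMap.toMatrix' ((g k).toZModLinearMap (p ^ k))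
  have hmv : ∀ k (x : Fin r → ZMod (p ^ k)), (Am k).mulVec x = (e' k).symm (f k (e k x)) := by
    intro k x
    show (LinearMap.toMatrix' ((g k).toZModLinearMap (p ^ k))).mulVec x = _
    rw [LinearMap.toMatrix'_mulVec]
    rfl
  have hap : ∀ k (i : Fin r') (j : Fin r),
      Am k i j = (e' k).symm (f k (e k (Pi.single j 1))) i := by
    intro k i j
    rw [← hmv, Matrix.mulVec_single_one]
    rfl
  have hcompat : ∀ (k₁ k₂ : ℕ) (h : k₁ ≤ k₂) (i : Fin r') (j : Fin r),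
      GAL.TateLimit.redZ p h (Am k₂ i j) = Am k₁ i j := by
    intro k₁ k₂ h i j
    rw [hap, hap]
    set y := (e' k₂).symm (f k₂ (e k₂ (Pi.single j 1))) with hy
    have h1 : e' k₁ (fun i => ZMod.castHom (pow_dvd_pow p h) (ZMod (p ^ k₁)) (y i)) =
        f k₁ (e k₁ (Pi.single j 1)) := by
      rw [← red_e' k₁ k₂ h y, hy, AddEquiv.apply_symm_apply, hf, red_e]
      congr 2
      funext i
      by_cases hij : i = j
      · subst hij
        rw [Pi.single_eq_same, Pi.single_eq_same, map_one]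
      · rw [Pi.single_eq_of_ne hij, Pi.single_eq_of_ne hij, map_zero]
    rw [← h1, AddEquiv.symm_apply_apply]
    rfl
  refine ⟨fun i j => GAL.TateLimit.Lim.toPadic p ⟨fun k => Am k i j,
    fun k₁ k₂ h => hcompat k₁ k₂ h i j⟩, ?_⟩
  intro k x
  have hmap : (Matrix.map (fun i j => GAL.TateLimit.Lim.toPadic p ⟨fun k => Am k i j,
      fun k₁ k₂ h => hcompat k₁ k₂ h i j⟩) (PadicInt.toZModPow k)) = Am k := by
    ext i j
    exact GAL.TateLimit.Lim.toZModPow_toPadic p k _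
  rw [hmap, hmv, AddEquiv.apply_symm_apply]

/-- A rectangular matrix over `ℤ_p` which kills all finite levels vanishes. -/
theorem Tower_rect_eq_zero {p : ℕ} [Fact p.Prime] {r r' : ℕ}
    {B : Matrix (Fin r') (Fin r) ℤ_[p]}
    (h : ∀ (k : ℕ) (x : Fin r → ZMod (p ^ k)),
      (B.map (PadicInt.toZModPow k)).mulVec x = 0) : B = 0 := by
  ext i j
  rw [← PadicInt.ext_of_toZModPow]
  intro k
  have h2 := congrFun (h k (Pi.single j 1)) i
  rw [Matrix.mulVec_single_one] at h2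
  simpa using h2

/-- A vector over `ℤ_p` which vanishes on all finite levels vanishes. -/
theorem Tower_vec_eq_zero {p : ℕ} [Fact p.Prime] {r : ℕ} {y : Fin r → ℤ_[p]}
    (h : ∀ k : ℕ, (fun i => PadicInt.toZModPow k (y i)) = 0) : y = 0 := by
  funext i
  rw [← PadicInt.ext_of_toZModPow]
  intro k
  simpa using congrFun (h k) i

/-- the tower of Kummer models -/
abbrev TowerV (N p : ℕ) (k : ℕ) : Type := KV Kbar (FN N) (p ^ k)

theorem Tower_map_mulVec {p : ℕ} [Fact p.Prime] {r r' : ℕ} (B : Matrix (Fin r') (Fin r) ℤ_[p])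
    (x : Fin r → ℤ_[p]) (k : ℕ) :
    (fun i => PadicInt.toZModPow k ((B.mulVec x) i))
      = (B.map (PadicInt.toZModPow k)).mulVec (fun i => PadicInt.toZModPow k (x i)) := by
  funext i
  exact RingHom.map_mulVec (PadicInt.toZModPow k) B x i

theorem Tower_map_zc {p : ℕ} [Fact p.Prime] {r r' : ℕ} (B : Matrix (Fin r') (Fin r) ℤ) (k : ℕ) :
    (zc ℤ_[p] B).map (PadicInt.toZModPow k) = B.map (Int.castRingHom (ZMod (p ^ k))) := by
  ext i j
  simp

theorem Tower_map_sub {p : ℕ} [Fact p.Prime] {r r' : ℕ} (X Y : Matrix (Fin r') (Fin r) ℤ_[p])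
    (k : ℕ) : (X - Y).map (PadicInt.toZModPow k)
      = X.map (PadicInt.toZModPow k) - Y.map (PadicInt.toZModPow k) := by
  ext i j
  simp

theorem Tower_map_add {p : ℕ} [Fact p.Prime] {r r' : ℕ} (X Y : Matrix (Fin r') (Fin r) ℤ_[p])
    (k : ℕ) : (X + Y).map (PadicInt.toZModPow k)
      = X.map (PadicInt.toZModPow k) + Y.map (PadicInt.toZModPow k) := by
  ext i j
  simp

theorem Tower_map_nsmul {p : ℕ} [Fact p.Prime] {r r' : ℕ} (n : ℕ)
    (X : Matrix (Fin r') (Fin r) ℤ_[p]) (k : ℕ) :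
    (n • X).map (PadicInt.toZModPow k) = n • X.map (PadicInt.toZModPow k) := by
  ext i j
  simp

theorem Tower_map_one {p : ℕ} [Fact p.Prime] {r : ℕ} (k : ℕ) :
    (1 : Matrix (Fin r) (Fin r) ℤ_[p]).map (PadicInt.toZModPow k) = 1 :=
  Matrix.map_one _ (map_zero _) (map_one _)

/-- **Assembly.** `ρ` = `(torsionTower ..).rho`; `W`, `P` from `exists_limMat` applied to
`wKV M q (p^k)`, `alphaKV M q (p^k)`; every identity between matrices over `ℤ_p` is checked on all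
finite levels (`TorsionTower.eq_zero_of_forall`, and its analogue for rectangular matrices);
`newFrob`: if `P x = 0` and `P W x = 0` over `ℤ_p`, reduce `x` mod `p^k`, apply `KVNewFrob`, get
`d • B x ≡ 0 mod p^k` for all `k`, so `B x = 0`. `bad := (L * p).primeFactors`. -/
theorem nonempty_newDatum {M q p L : ℕ} [NeZero M] [NeZero q] [Fact p.Prime]
    (hL : M * q ∣ L) (hL0 : L ≠ 0)
    (D : TorsDatum (M * q)) (D' : TorsDatum M)
    (hU : KVUnramified (M * q) L p) (hF : KVFrobRel (M * q) L p)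
    (hdeg : KVDegen M q) (hnew : KVNewFrob M q p) : Nonempty (NewDatum M q p) := by
  classical
  obtain ⟨d, hd, hnew⟩ := hnew
  let TT := torsionTower hL D hU hF
  let e : ∀ k, (Fin D.r → ZMod (p ^ k)) ≃+ KV Kbar (FN (M * q)) (p ^ k) := fun k => D.e (p ^ k)
  let e' : ∀ k, (Fin D'.r → ZMod (p ^ k)) ≃+ KV Kbar (FN M) (p ^ k) := fun k => D'.e (p ^ k)
  let ρ : GQ →* Matrix (Fin D.r) (Fin D.r) ℤ_[p] := TT.rho
  have hρ : ∀ (k : ℕ) (σ : GQ) (x : Fin D.r → ZMod (p ^ k)),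
      e k (((ρ σ).map (PadicInt.toZModPow k)).mulVec x) = σ • e k x :=
    fun k σ x => TT.rho_spec k σ x
  obtain ⟨W, hW⟩ := @exists_limMat p _ D.r D.r (TowerV (M * q) p) (TowerV (M * q) p)
    (fun _ => inferInstance) (fun _ => inferInstance) e e
    (fun _ _ h => KV.red (pow_dvd_pow p h)) (fun _ _ h => KV.red (pow_dvd_pow p h))
    (fun k₁ k₂ h x => D.e_red (p ^ k₁) (p ^ k₂) (pow_dvd_pow p h) x)
    (fun k₁ k₂ h x => D.e_red (p ^ k₁) (p ^ k₂) (pow_dvd_pow p h) x)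
    (fun k => wKV M q (p ^ k))
    (fun k₁ k₂ h x => hdeg.w_red (p ^ k₁) (p ^ k₂) (pow_dvd_pow p h) x)
  obtain ⟨P, hP⟩ := @exists_limMat p _ D.r D'.r (TowerV (M * q) p) (TowerV M p)
    (fun _ => inferInstance) (fun _ => inferInstance) e e'
    (fun _ _ h => KV.red (pow_dvd_pow p h)) (fun _ _ h => KV.red (pow_dvd_pow p h))
    (fun k₁ k₂ h x => D.e_red (p ^ k₁) (p ^ k₂) (pow_dvd_pow p h) x)
    (fun k₁ k₂ h x => D'.e_red (p ^ k₁) (p ^ k₂) (pow_dvd_pow p h) x)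
    (fun k => alphaKV M q (p ^ k))
    (fun k₁ k₂ h x => hdeg.alpha_red (p ^ k₁) (p ^ k₂) (pow_dvd_pow p h) x)
  have hT : ∀ (k ℓ : ℕ) [NeZero ℓ], ℓ.Prime → ¬ ℓ ∣ M * q → ∀ x : Fin D.r → ZMod (p ^ k),
      e k (((zc ℤ_[p] (D.T ℓ)).map (PadicInt.toZModPow k)).mulVec x)
        = heckeT Kbar (M * q) ℓ (p ^ k) (e k x) := by
    intro k ℓ _ hℓ hℓN x
    rw [Tower_map_zc]
    exact D.e_T (p ^ k) ℓ hℓ hℓN x
  have hT' : ∀ (k ℓ : ℕ) [NeZero ℓ], ℓ.Prime → ¬ ℓ ∣ M → ∀ x : Fin D'.r → ZMod (p ^ k),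
      e' k (((zc ℤ_[p] (D'.T ℓ)).map (PadicInt.toZModPow k)).mulVec x)
        = heckeT Kbar M ℓ (p ^ k) (e' k x) := by
    intro k ℓ _ hℓ hℓN x
    rw [Tower_map_zc]
    exact D'.e_T (p ^ k) ℓ hℓ hℓN x
  have hWW : W * W = 1 := by
    rw [← sub_eq_zero]
    apply Tower_rect_eq_zero
    intro k x
    apply (e k).injective
    rw [map_zero]
    rw [Tower_map_sub, Matrix.map_mul, Tower_map_one, Matrix.sub_mulVec, map_sub,
      ← Matrix.mulVec_mulVec, hW, hW, Matrix.one_mulVec, wKV_wKV, sub_self]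
  have hWρ : ∀ σ : GQ, W * ρ σ = ρ σ * W := by
    intro σ
    rw [← sub_eq_zero]
    apply Tower_rect_eq_zero
    intro k x
    apply (e k).injective
    rw [map_zero]
    rw [Tower_map_sub, Matrix.map_mul, Matrix.map_mul, Matrix.sub_mulVec, map_sub,
      ← Matrix.mulVec_mulVec, ← Matrix.mulVec_mulVec, hW, hρ, hρ, hW, hdeg.w_galois, sub_self]
  refine ⟨{
    r := D.r
    T := D.T
    T_comm := D.T_comm
    per := D.per
    per_injective := D.per_injective
    per_T := D.per_T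
    ρ := ρ
    ρ_T := ?_
    ρ_cont := TT.rho_cont
    bad := (L * p).primeFactors
    ρ_ES := ?_
    r' := D'.r
    T' := D'.T
    T'_comm := D'.T_comm
    per' := D'.per
    per'_T := D'.per_T
    per'_faithful := D'.per_faithful
    W := W
    W_sq := hWW
    W_T := ?_
    W_ρ := hWρ
    P := P
    P_T := ?_
    newFrob := ?_ }⟩
  · intro σ ℓ hℓ hℓN
    have : NeZero ℓ := ⟨hℓ.ne_zero⟩
    rw [← sub_eq_zero]
    apply Tower_rect_eq_zero
    intro k x
    apply (e k).injective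
    rw [map_zero]
    rw [Tower_map_sub, Matrix.map_mul, Matrix.map_mul, Matrix.sub_mulVec, map_sub,
      ← Matrix.mulVec_mulVec, ← Matrix.mulVec_mulVec, hρ, hT k ℓ hℓ hℓN, hT k ℓ hℓ hℓN, hρ,
      heckeT_galois_smul, sub_self]
  · intro ℓ hℓ hbad A hA σ hσ
    have hℓL : ¬ ℓ ∣ L * p := by
      intro h
      exact hbad (Nat.mem_primeFactors.2
        ⟨hℓ, h, mul_ne_zero hL0 (Fact.out : p.Prime).ne_zero⟩)
    exact TT.rho_ES hℓ hℓL A hA σ hσ
  · intro ℓ hℓ hℓN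
    have : NeZero ℓ := ⟨hℓ.ne_zero⟩
    rw [← sub_eq_zero]
    apply Tower_rect_eq_zero
    intro k x
    apply (e k).injective
    rw [map_zero]
    rw [Tower_map_sub, Matrix.map_mul, Matrix.map_mul, Matrix.sub_mulVec, map_sub,
      ← Matrix.mulVec_mulVec, ← Matrix.mulVec_mulVec, hW, hT k ℓ hℓ hℓN, hT k ℓ hℓ hℓN, hW,
      hdeg.w_hecke _ ℓ hℓ hℓN, sub_self]
  · intro ℓ hℓ hℓN
    have : NeZero ℓ := ⟨hℓ.ne_zero⟩
    have hℓM : ¬ ℓ ∣ M := fun h => hℓN (h.mul_right q)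
    rw [← sub_eq_zero]
    apply Tower_rect_eq_zero
    intro k x
    apply (e' k).injective
    rw [map_zero]
    rw [Tower_map_sub, Matrix.map_mul, Matrix.map_mul, Matrix.sub_mulVec, map_sub,
      ← Matrix.mulVec_mulVec, ← Matrix.mulVec_mulVec, hP, hT k ℓ hℓ hℓN, hT' k ℓ hℓ hℓM, hP,
      hdeg.alpha_hecke _ ℓ hℓ hℓN, sub_self]
  · intro A hA σ hσ x hx1 hx2
    have hB : (ρ σ + (q : ℤ_[p]) • W) * (ρ σ + W)
        = ρ σ * ρ σ + (q + 1) • (ρ σ * W) + q • (1 : Matrix (Fin D.r) (Fin D.r) ℤ_[p]) := by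
      rw [add_mul, mul_add, mul_add, smul_mul_assoc, smul_mul_assoc, hWρ σ, hWW,
        Nat.cast_smul_eq_nsmul, Nat.cast_smul_eq_nsmul, succ_nsmul]
      abel
    rw [hB]
    set y := (ρ σ * ρ σ + (q + 1) • (ρ σ * W)
      + q • (1 : Matrix (Fin D.r) (Fin D.r) ℤ_[p])).mulVec x with hy
    have hdy : d • y = 0 := by
      apply Tower_vec_eq_zero
      intro k
      apply (e k).injective
      rw [map_zero]
      set xk : Fin D.r → ZMod (p ^ k) := fun i => PadicInt.toZModPow k (x i) with hxk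
      have h1 : (fun i => PadicInt.toZModPow k ((d • y) i))
          = d • (fun i => PadicInt.toZModPow k (y i)) := by
        funext i
        simp
      have hX1 : alphaKV M q (p ^ k) (e k xk) = 0 := by
        rw [← hP, hxk, ← Tower_map_mulVec, hx1]
        have h0 : (fun i : Fin D'.r => PadicInt.toZModPow k ((0 : Fin D'.r → ℤ_[p]) i)) = 0 := by
          funext i
          simp
        rw [h0, map_zero]
      have hX2 : alphaKV M q (p ^ k) (wKV M q (p ^ k) (e k xk)) = 0 := by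
        rw [← hW, hxk, ← Tower_map_mulVec, ← hP, ← Tower_map_mulVec, hx2]
        have h0 : (fun i : Fin D'.r => PadicInt.toZModPow k ((0 : Fin D'.r → ℤ_[p]) i)) = 0 := by
          funext i
          simp
        rw [h0, map_zero]
      rw [h1, map_nsmul, hy, Tower_map_mulVec, Tower_map_add, Tower_map_add, Tower_map_nsmul,
        Tower_map_nsmul, Tower_map_one, Matrix.map_mul, Matrix.map_mul, Matrix.add_mulVec,
        Matrix.add_mulVec, Matrix.smul_mulVec, Matrix.smul_mulVec, Matrix.one_mulVec,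
        ← Matrix.mulVec_mulVec, ← Matrix.mulVec_mulVec, map_add, map_add, map_nsmul, map_nsmul,
        hρ, hρ, hρ, hW]
      exact hnew k A hA σ hσ (e k xk) hX1 hX2
    funext i
    have h2 := congrFun hdy i
    rw [Pi.smul_apply, Pi.zero_apply, nsmul_eq_mul, mul_eq_zero] at h2
    rcases h2 with h2 | h2
    · exact absurd (Nat.cast_eq_zero.mp h2) hd
    · exact h2

/-- `NewInput` from the outputs of GAL and DR. -/
theorem newInput_of
    (hT : ∀ (N : ℕ) [NeZero N], Nonempty (TorsDatum N))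
    (hU : ∀ (N p : ℕ) [NeZero N] [Fact p.Prime], KVUnramified N N p)
    (hF : ∀ (N p : ℕ) [NeZero N] [Fact p.Prime], KVFrobRel N N p)
    (hdeg : ∀ (M q : ℕ) [NeZero M] [NeZero q], q.Prime → ¬ q ∣ M → KVDegen M q)
    (hnew : ∀ (M q p : ℕ) [NeZero M] [NeZero q], q.Prime → ¬ q ∣ M → p.Prime → q ≠ p →
      KVNewFrob M q p) : NewInput := by
  intro M q p _ _ _ hq hqM hqp
  obtain ⟨D⟩ := hT (M * q)
  obtain ⟨D'⟩ := hT M
  exact nonempty_newDatum dvd_rfl (NeZero.ne _) D D' (hU _ p) (hF _ p) (hdeg M q hq hqM)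
    (hnew M q p hq hqM Fact.out hqp)

end Fermat.Agent.DR
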