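import Fermat.Agent.GAL.RepAlg
import Fermat.Agent.GAL.Interface

set_option autoImplicit false

/-!
# DR/S35 : the signed eigen-sublattice

Inside `O^n` (with a continuous action `A` of `G_ℚ` by matrices, commuting operators `T ℓ` and an
involution `W`) the sublattice `{x | T ℓ x = a ℓ x, W x = s x}` for a suitable sign `s`.
-/

namespace Fermat.Agent.DR

open Fermat.Agent.GAL

/-- The signed eigen-submodule. -/
def signedEigen {O : Type} [CommRing O] {n : ℕ} (L : ℕ → Prop) (T : ℕ → Matrix (Fin n) (Fin n) O)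
    (a : ℕ → O) (W : Matrix (Fin n) (Fin n) O) (s : O) : Submodule O (Fin n → O) where
  carrier := {x | (∀ ℓ, L ℓ → (T ℓ).mulVec x = a ℓ • x) ∧ W.mulVec x = s • x}
  zero_mem' := ⟨fun ℓ _ => by simp, by simp⟩
  add_mem' := by
    rintro x y ⟨hx, hx'⟩ ⟨hy, hy'⟩
    exact ⟨fun ℓ hℓ => by rw [Matrix.mulVec_add, hx ℓ hℓ, hy ℓ hℓ, smul_add],
      by rw [Matrix.mulVec_add, hx', hy', smul_add]⟩
  smul_mem' := by
    rintro c x ⟨hx, hx'⟩
    exact ⟨fun ℓ hℓ => by rw [Matrix.mulVec_smul, hx ℓ hℓ, smul_comm],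
      by rw [Matrix.mulVec_smul, hx', smul_comm]⟩

theorem sat_signedEigen_le {O : Type} [CommRing O] [IsDomain O] {n : ℕ} (L : ℕ → Prop)
    (T : ℕ → Matrix (Fin n) (Fin n) O) (a : ℕ → O) (W : Matrix (Fin n) (Fin n) O) (s : O) :
    RepAlg.sat (signedEigen L T a W s) ≤ signedEigen L T a W s := by
  rintro x ⟨α, hα, hx, hx'⟩
  refine ⟨fun ℓ hℓ => ?_, ?_⟩
  · have h := hx ℓ hℓ
    rw [Matrix.mulVec_smul, smul_comm] at h
    exact smul_right_injective _ hα h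
  · rw [Matrix.mulVec_smul, smul_comm] at hx'
    exact smul_right_injective _ hα hx'

theorem mem_smul_top_pi {O : Type} [CommRing O] {n : ℕ} (I : Ideal O) (x : Fin n → O)
    (hx : ∀ i, x i ∈ I) : x ∈ I • (⊤ : Submodule O (Fin n → O)) := by
  rw [pi_eq_sum_univ x]
  exact Submodule.sum_mem _ fun i _ => Submodule.smul_mem_smul (hx i) trivial

/-- Proof. `U s := {x | (∀ ℓ, L ℓ → T ℓ *ᵥ x = a ℓ • x) ∧ W *ᵥ x = s • x}` is a submodule of `O^n`,
stable under all `A σ`, and saturated (`α ≠ 0`, `α • x ∈ U s → x ∈ U s`).  If `y + W y ≠ 0` it is a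
nonzero element of `U 1`, otherwise `y` is a nonzero element of `U (-1)`.  Take
`Λ = RepAlg.sat (U s)` (`= U s`), `r = RepAlg.restr`, `j = Submodule.subtype`; continuity from
`RepAlg.mem_smul_top_sat` (as in `GAL/ALG/RankTwo.lean`). -/
theorem exists_signed_lattice {O : Type} [CommRing O] [IsDomain O] [IsDiscreteValuationRing O]
    {n : ℕ} (A : GQ →* Matrix (Fin n) (Fin n) O)
    (hA : ∀ k : ℕ, ∃ F : IntermediateField ℚ (AlgebraicClosure ℚ), FiniteDimensional ℚ F ∧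
      ∀ σ : GQ, (∀ x ∈ F, σ x = x) → ∀ i j, (A σ - 1) i j ∈ IsLocalRing.maximalIdeal O ^ k)
    (L : ℕ → Prop) (T : ℕ → Matrix (Fin n) (Fin n) O) (a : ℕ → O)
    (hAT : ∀ σ ℓ, L ℓ → A σ * T ℓ = T ℓ * A σ)
    (W : Matrix (Fin n) (Fin n) O) (hW : W * W = 1)
    (hWT : ∀ ℓ, L ℓ → W * T ℓ = T ℓ * W) (hWA : ∀ σ, W * A σ = A σ * W)
    (y : Fin n → O) (hy0 : y ≠ 0) (hy : ∀ ℓ, L ℓ → (T ℓ).mulVec y = a ℓ • y) :
    ∃ (s : O) (Λ : Type) (_ : AddCommGroup Λ) (_ : Module O Λ) (_ : Module.Free O Λ)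
      (_ : Module.Finite O Λ) (_ : Nontrivial Λ) (r : GQ →* Module.End O Λ)
      (j : Λ →ₗ[O] (Fin n → O)),
      (s = 1 ∨ s = -1) ∧ GaloisActionIsAdicContinuous O r ∧ Function.Injective j ∧
      (∀ σ v, j (r σ v) = (A σ).mulVec (j v)) ∧
      (∀ ℓ, L ℓ → ∀ v, (T ℓ).mulVec (j v) = a ℓ • j v) ∧
      (∀ v, W.mulVec (j v) = s • j v) := by
  classical
  -- the sign and a nonzero vector
  obtain ⟨s, hs, z, hz0, hz⟩ : ∃ s : O, (s = 1 ∨ s = -1) ∧ ∃ z : Fin n → O, z ≠ 0 ∧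
      z ∈ signedEigen L T a W s := by
    by_cases h : y + W.mulVec y = 0
    · refine ⟨-1, Or.inr rfl, y, hy0, hy, ?_⟩
      rw [neg_smul, one_smul]
      exact eq_neg_of_add_eq_zero_right h
    · refine ⟨1, Or.inl rfl, y + W.mulVec y, h, fun ℓ hℓ => ?_, ?_⟩
      · rw [Matrix.mulVec_add, Matrix.mulVec_mulVec, ← hWT ℓ hℓ, ← Matrix.mulVec_mulVec, hy ℓ hℓ,
          Matrix.mulVec_smul, smul_add]
      · rw [Matrix.mulVec_add, Matrix.mulVec_mulVec, hW, Matrix.one_mulVec, one_smul, add_comm]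
  let r₀ : GQ →* Module.End O (Fin n → O) :=
    { toFun := fun σ => (A σ).mulVecLin
      map_one' := by rw [map_one]; exact Matrix.mulVecLin_one
      map_mul' := fun σ τ => by rw [map_mul]; exact Matrix.mulVecLin_mul _ _ }
  have hr₀ : ∀ σ x, r₀ σ x = (A σ).mulVec x := fun σ x => rfl
  have hst : ∀ σ, ∀ x ∈ signedEigen L T a W s, r₀ σ x ∈ signedEigen L T a W s := by
    rintro σ x ⟨hx, hx'⟩
    refine ⟨fun ℓ hℓ => ?_, ?_⟩
    · rw [hr₀, Matrix.mulVec_mulVec, ← hAT σ ℓ hℓ, ← Matrix.mulVec_mulVec, hx ℓ hℓ,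
        Matrix.mulVec_smul]
    · rw [hr₀, Matrix.mulVec_mulVec, hWA, ← Matrix.mulVec_mulVec, hx', Matrix.mulVec_smul]
  have hS : ∀ σ, ∀ x ∈ RepAlg.sat (signedEigen L T a W s),
      r₀ σ x ∈ RepAlg.sat (signedEigen L T a W s) := fun σ => RepAlg.sat_stable (r₀ σ) (hst σ)
  have hnt : Nontrivial (RepAlg.sat (signedEigen L T a W s)) :=
    ⟨⟨⟨z, RepAlg.le_sat _ hz⟩, 0, fun h0 => hz0 (congrArg Subtype.val h0)⟩⟩
  refine ⟨s, RepAlg.sat (signedEigen L T a W s), inferInstance, inferInstance, inferInstance,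
    inferInstance, hnt, RepAlg.restr r₀ _ hS, Submodule.subtype _, hs, ?_,
    Submodule.subtype_injective _, fun σ v => rfl, ?_, ?_⟩
  · intro k
    obtain ⟨F, hF, hFσ⟩ := hA k
    refine ⟨F, hF, fun σ hσ v => ?_⟩
    refine RepAlg.mem_smul_top_sat _ _ _ ?_
    have h1 : ((RepAlg.restr r₀ _ hS σ v - v : RepAlg.sat (signedEigen L T a W s)) : Fin n → O) =
        (A σ - 1).mulVec (v : Fin n → O) := by
      rw [Matrix.sub_mulVec, Matrix.one_mulVec]
      rfl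
    rw [h1]
    refine mem_smul_top_pi _ _ fun i => ?_
    have h2 : (A σ - 1).mulVec (v : Fin n → O) i = ∑ j, (A σ - 1) i j * (v : Fin n → O) j := rfl
    rw [h2]
    exact Ideal.sum_mem _ fun j _ => Ideal.mul_mem_right _ _ (hFσ σ hσ i j)
  · intro ℓ hℓ v
    exact (sat_signedEigen_le L T a W s v.2).1 ℓ hℓ
  · intro v
    exact (sat_signedEigen_le L T a W s v.2).2

end Fermat.Agent.DR
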