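import Fermat.Agent.S23
import Fermat.Agent.S49.Lattice
import Fermat.Prelude.Def_CuspForm_HeckeLocal
import Fermat.Agent.DR.S35.EigenAbs

set_option autoImplicit false

/-!
# DR/S35 : every character of the Hecke algebra is the eigensystem of a cusp form
-/

namespace Fermat.Agent.DR

open CuspForm CongruenceSubgroup ModularFormClass

theorem FormChar_qc_sum {M : ℕ} {ι : Type} (s : Finset ι) (c : ι → ℂ)
    (f : ι → CuspForm (Gamma0 M) 2) (n : ℕ) :
    qCoeff ⇑(∑ i ∈ s, c i • f i) n = ∑ i ∈ s, c i * qCoeff ⇑(f i) n := by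
  classical
  induction s using Finset.induction_on with
  | empty =>
    have h := S49.qc_smul (0 : ℂ) (0 : CuspForm (Gamma0 M) 2) n
    rw [zero_smul, zero_mul] at h
    simpa using h
  | insert a s ha ih =>
    rw [Finset.sum_insert ha, Finset.sum_insert ha, S49.qc_add, S49.qc_smul, ih]

/-- `ℤ`-linearly independent cusp forms with integral `q`-expansions are `ℂ`-linearly independent.
Proof: let `∑ z i • b i = 0`, `z i₀ ≠ 0`. Choose a `ℚ`-linear form `λ : ℂ → ℚ` with `λ (z i₀) ≠ 0`
(`Module.forall_dual_apply_eq_zero_iff`). Taking `q`-coefficients (`S49.qc_add`, `S49.qc_smul`,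
integers by `S49.mem_intLattice_iff`) and applying `λ`: `∑ λ (z i) * a_n (b i) = 0` for all `n`, so
`∑ (λ (z i) : ℂ) • b i = 0` by `S49.qc_ext`; clearing denominators contradicts `hb`. -/
theorem linearIndependent_intLattice (M : ℕ) [NeZero M] {ι : Type} [Finite ι]
    (b : ι → intLattice M 2) (hb : LinearIndependent ℤ b) :
    LinearIndependent ℂ (fun i => ((b i : intLattice M 2) : CuspForm (Gamma0 M) 2)) := by
  classical
  cases nonempty_fintype ι
  let _ : Module ℚ (CuspForm (Gamma0 M) 2) := Module.compHom _ (algebraMap ℚ ℂ)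
  have hZ : LinearIndependent ℤ (fun i => ((b i : intLattice M 2) : CuspForm (Gamma0 M) 2)) :=
    hb.map' (intLattice M 2).subtype (Submodule.ker_subtype _)
  have hQ : LinearIndependent ℚ (fun i => ((b i : intLattice M 2) : CuspForm (Gamma0 M) 2)) :=
    (LinearIndependent.iff_fractionRing ℤ ℚ).1 hZ
  choose a ha using fun i => (S49.mem_intLattice_iff _).1 (b i).2
  rw [Fintype.linearIndependent_iff] at hQ ⊢
  intro z hz i₀
  by_contra hne
  obtain ⟨lam, hlam⟩ : ∃ lam : Module.Dual ℚ ℂ, lam (z i₀) ≠ 0 := by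
    by_contra hcon
    push Not at hcon
    exact hne ((Module.forall_dual_apply_eq_zero_iff ℚ _).1 hcon)
  apply hlam
  apply hQ (fun i => lam (z i))
  change ∑ i, ((lam (z i) : ℚ) : ℂ) • ((b i : intLattice M 2) : CuspForm (Gamma0 M) 2) = 0
  apply S49.qc_ext
  intro n
  rw [FormChar_qc_sum]
  have h1 : ∑ i, z i * qCoeff ⇑((b i : intLattice M 2) : CuspForm (Gamma0 M) 2) n = 0 := by
    rw [← FormChar_qc_sum, hz]
    have h := S49.qc_smul (0 : ℂ) (0 : CuspForm (Gamma0 M) 2) n
    rw [zero_smul, zero_mul] at h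
    exact h
  simp only [ha] at h1 ⊢
  have h2 := congrArg lam h1
  rw [map_sum, map_zero] at h2
  have h3 : ∀ i, lam (z i * (a i n : ℂ)) = lam (z i) * (a i n : ℚ) := by
    intro i
    have h4 : z i * (a i n : ℂ) = (a i n : ℚ) • z i := by
      rw [Rat.smul_def]
      push_cast
      ring
    rw [h4, map_smul, smul_eq_mul, mul_comm]
  simp only [h3] at h2
  exact_mod_cast congrArg (fun q : ℚ => (q : ℂ)) h2

/-- Proof. `Λ = intLattice M 2` is free of finite rank `n` over `ℤ` (`intLattice.moduleFree`,
`intLattice.moduleFinite`); let `b` be a basis. `Φ x := LinearMap.toMatrix b b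
(latticeActionHom M S (Ψ x))` is an injective ring homomorphism `C → M_n(ℤ)` (injective because
`Λ` spans the space of cusp forms: `Fermat.Agent.S23.result M`). By (A)
(`exists_eigenvector_of_faithful`, `K = ℂ`) there is `z ≠ 0` in `ℂ^n` with `Φ x *ᵥ z = θ x • z`...
CAUTION: with `toMatrix` the vector `f = ∑ z i • b i` satisfies `t f = ∑ (Φᵀ...)`; apply (A) to the
transposed homomorphism if necessary (`C` is commutative). `f ≠ 0` by
`linearIndependent_intLattice`. -/
theorem exists_form_of_character {M : ℕ} [NeZero M] (S : Set ℕ) {C : Type} [CommRing C]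
    (Ψ : C →+* heckeAlgebra M 2 S) (hΨ : Function.Injective Ψ) (θ : C →+* ℂ) :
    ∃ f : CuspForm (Gamma0 M) 2, f ≠ 0 ∧ ∀ x : C, (Ψ x).1 f = θ x • f := by
  have := intLattice.moduleFinite M
  have := intLattice.moduleFree M
  let b : Module.Basis (Fin (Module.finrank ℤ (intLattice M 2))) ℤ (intLattice M 2) :=
    Module.finBasis ℤ _
  let Φ : C →+* Matrix (Fin (Module.finrank ℤ (intLattice M 2)))
      (Fin (Module.finrank ℤ (intLattice M 2))) ℤ :=
    (((LinearMap.toMatrixAlgEquiv b).toRingEquiv.toRingHom).comp (latticeActionHom M S)).comp Ψ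
  have hΦ : Function.Injective Φ := by
    intro x y hxy
    apply hΨ
    apply latticeActionHom_injective M S (Fermat.Agent.S23.result M)
    exact (LinearMap.toMatrixAlgEquiv b).injective hxy
  have hΦa : ∀ (x : C) (i j), Φ x i j = b.repr (latticeActionHom M S (Ψ x) (b j)) i := by
    intro x i j
    exact LinearMap.toMatrixAlgEquiv_apply b _ i j
  obtain ⟨y, hy, hyx⟩ := exists_eigenvector_of_faithful Φ hΦ θ
  refine ⟨∑ i, y i • ((b i : intLattice M 2) : CuspForm (Gamma0 M) 2), ?_, ?_⟩
  · intro h
    have hli := linearIndependent_intLattice M b b.linearIndependent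
    rw [Fintype.linearIndependent_iff] at hli
    exact hy (funext (hli y h))
  · intro x
    have hb : ∀ i, (Ψ x).1 ((b i : intLattice M 2) : CuspForm (Gamma0 M) 2) =
        ∑ j, ((Φ x j i : ℤ) : ℂ) • ((b j : intLattice M 2) : CuspForm (Gamma0 M) 2) := by
      intro i
      have h1 : (Ψ x).1 ((b i : intLattice M 2) : CuspForm (Gamma0 M) 2) =
          ((latticeActionHom M S (Ψ x) (b i) : intLattice M 2) : CuspForm (Gamma0 M) 2) := rfl
      have h2 : ((latticeActionHom M S (Ψ x) (b i) : intLattice M 2) : CuspForm (Gamma0 M) 2) =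
          ((∑ j, b.repr (latticeActionHom M S (Ψ x) (b i)) j • b j : intLattice M 2) :
            CuspForm (Gamma0 M) 2) := by
        rw [b.sum_repr]
      rw [h1, h2, Submodule.coe_sum]
      refine Finset.sum_congr rfl fun j _ => ?_
      rw [hΦa, Int.cast_smul_eq_zsmul, Submodule.coe_smul_of_tower]
    rw [map_sum]
    simp only [map_smul, hb, Finset.smul_sum, smul_smul]
    rw [Finset.sum_comm]
    refine Finset.sum_congr rfl fun j _ => ?_
    rw [← Finset.sum_smul]
    congr 1
    have := congrFun (hyx x) j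
    simp only [Matrix.mulVec, dotProduct, Matrix.map_apply, Pi.smul_apply, smul_eq_mul] at this
    rw [← this]
    refine Finset.sum_congr rfl fun i _ => ?_
    simp [mul_comm]

end Fermat.Agent.DR
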